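-- Statement S02: FreyPackage.of_counterexample.
import Fermat.Statements.S02

set_option autoImplicit false
open FreyPackage

namespace Fermat.Agent.S02

theorem cast_four_eq_three (a : ℤ) (h : a % 4 = 3) : (a : ZMod 4) = 3 := by
  have h3 : ((3 : ℤ) : ZMod 4) = 3 := by norm_num
  rw [← h3, ZMod.intCast_eq_intCast_iff]
  exact h

theorem cast_two_eq_zero (b : ℤ) (h : (2 : ℤ) ∣ b) : (b : ZMod 2) = 0 := by
  exact (ZMod.intCast_zmod_eq_zero_iff_dvd b 2).2 (by exact_mod_cast h)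

/-- Core case: `a`, `b` coprime and `b` even. -/
theorem core (a b c : ℤ) (ha : a ≠ 0) (hb : b ≠ 0) (hc : c ≠ 0) (p : ℕ) (pp : p.Prime)
    (hp5 : 5 ≤ p) (H : a ^ p + b ^ p = c ^ p) (hab : gcd a b = 1) (hb2 : (2 : ℤ) ∣ b) :
    Nonempty FreyPackage := by
  have hpodd : Odd p := pp.odd_of_ne_two (by omega)
  have ha2 : ¬ (2 : ℤ) ∣ a := by
    intro h
    have h2 : (2 : ℤ) ∣ gcd a b := dvd_gcd h hb2
    rw [hab] at h2
    norm_num at h2
  have h4 : a % 4 = 1 ∨ a % 4 = 3 := by omega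
  rcases h4 with h4 | h4
  · refine ⟨⟨-a, -b, -c, neg_ne_zero.mpr ha, neg_ne_zero.mpr hb, neg_ne_zero.mpr hc, p, pp, hp5,
      ?_, ?_, ?_, ?_⟩⟩
    · rw [hpodd.neg_pow, hpodd.neg_pow, hpodd.neg_pow, ← H]; ring
    · rw [gcd_neg, neg_gcd]; exact hab
    · exact cast_four_eq_three _ (by omega)
    · exact cast_two_eq_zero _ (by omega)
  · exact ⟨⟨a, b, c, ha, hb, hc, p, pp, hp5, H, hab, cast_four_eq_three _ h4,
      cast_two_eq_zero _ hb2⟩⟩

/-- Coprime case. -/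
theorem coprime_case (a b c : ℤ) (ha : a ≠ 0) (hb : b ≠ 0) (hc : c ≠ 0) (p : ℕ) (pp : p.Prime)
    (hp5 : 5 ≤ p) (H : a ^ p + b ^ p = c ^ p) (hab : gcd a b = 1) :
    Nonempty FreyPackage := by
  have hpodd : Odd p := pp.odd_of_ne_two (by omega)
  have hp0 : 0 < p := by omega
  by_cases hb2 : (2 : ℤ) ∣ b
  · exact core a b c ha hb hc p pp hp5 H hab hb2
  by_cases ha2 : (2 : ℤ) ∣ a
  · exact core b a c hb ha hc p pp hp5 (by rw [add_comm]; exact H) (by rw [gcd_comm]; exact hab) ha2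
  -- both odd, hence `c` is even
  have hc2 : (2 : ℤ) ∣ c := by
    have hao : Odd a := Int.not_even_iff_odd.mp (fun h => ha2 (even_iff_two_dvd.mp h))
    have hbo : Odd b := Int.not_even_iff_odd.mp (fun h => hb2 (even_iff_two_dvd.mp h))
    have hce : Even (c ^ p) := by
      rw [← H]
      exact (hao.pow).add_odd (hbo.pow)
    have : Even c := (Int.even_pow.mp hce).1
    exact even_iff_two_dvd.mp this
  -- `a ^ p + (-c) ^ p = (-b) ^ p`
  refine core a (-c) (-b) ha (neg_ne_zero.mpr hc) (neg_ne_zero.mpr hb) p pp hp5 ?_ ?_ ?_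
  · rw [hpodd.neg_pow, hpodd.neg_pow, ← H]; ring
  · rw [gcd_neg, ← gcdab_eq_gcdac hp0 H]; exact hab
  · exact (dvd_neg).mpr hc2

theorem result (a b c : ℤ) (ha : a ≠ 0) (hb : b ≠ 0) (hc : c ≠ 0) (p : ℕ) (pp : p.Prime) (hp5 : 5 ≤ p) (H : a ^ p + b ^ p = c ^ p) : Nonempty FreyPackage := by
  have hp0 : p ≠ 0 := by omega
  obtain ⟨a', b', ha', hb', hu⟩ := extract_gcd a b
  set d : ℤ := gcd a b with hd
  have hd0 : d ≠ 0 := by
    intro h
    rw [h, zero_mul] at ha'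
    exact ha ha'
  have hdc : d ∣ c := by
    rw [← Int.pow_dvd_pow_iff hp0, ← H]
    exact dvd_add (pow_dvd_pow_of_dvd (gcd_dvd_left a b) p) (pow_dvd_pow_of_dvd (gcd_dvd_right a b) p)
  obtain ⟨c', hc'⟩ := hdc
  have ha0' : a' ≠ 0 := by
    rintro rfl
    exact ha (by rw [ha', mul_zero])
  have hb0' : b' ≠ 0 := by
    rintro rfl
    exact hb (by rw [hb', mul_zero])
  have hc0' : c' ≠ 0 := by
    rintro rfl
    exact hc (by rw [hc', mul_zero])
  have H' : a' ^ p + b' ^ p = c' ^ p := by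
    have h1 : d ^ p * (a' ^ p + b' ^ p) = d ^ p * c' ^ p := by
      rw [mul_add, ← mul_pow, ← mul_pow, ← mul_pow, ← ha', ← hb', ← hc']
      exact H
    exact mul_left_cancel₀ (pow_ne_zero p hd0) h1
  have hab' : gcd a' b' = 1 := by
    have h1 := Int.isUnit_iff.mp hu
    rcases h1 with h1 | h1
    · exact h1
    · exfalso
      have h2 : (0 : ℤ) ≤ gcd a' b' := by
        rw [← Int.coe_gcd]
        exact Int.natCast_nonneg _
      omega
  exact coprime_case a' b' c' ha0' hb0' hc0' p pp hp5 H' hab'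

end Fermat.Agent.S02
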