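import Fermat.Statements.S05
import Fermat.Agent.S05.OrdConstruct
import Fermat.Agent.S05.LocalCore
import Fermat.Agent.S05.CertGood
import Fermat.Agent.S05.CertMult
import Fermat.Agent.S05.FreyArith

set_option autoImplicit false
open WeierstrassCurve WeierstrassCurve.Affine WeierstrassCurve.Affine.Point
open FreyPackage

namespace Fermat.Agent.S05

/-- the local theorem: a ring endomorphism `σ` "in inertia" fixes `p`-torsion points. -/
theorem local_fixed {K : Type*} [Field K] [DecidableEq K] (v : OrdFn K)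
    {W : WeierstrassCurve K} {A B : K} (hW : IsFreyModel W A B)
    {p : ℕ} (hpp : p.Prime) (hp5 : 5 ≤ p)
    (h2 : v.HasOrd (2 : K) 0) (hpv : v.HasOrd (p : K) 0)
    (hA : v.Ge 0 A) (hB : v.Ge 0 B)
    (σ : K →+* K) (hσord : ∀ x, v.ord (σ x) = v.ord x)
    (hσres : ∀ x, v.Ge 0 x → v.Gt 0 (σ x - x))
    (π : K) (hπ : v.HasOrd π 1) (hσπ : σ π = π)
    (hred : (v.HasOrd A 0 ∧ v.HasOrd B 0 ∧ v.HasOrd (A + B) 0) ∨
      ∃ (e A' B' : K) (h₀ : ℕ), σ e = e ∧ v.Ge 0 e ∧ 0 < h₀ ∧
        v.HasOrd A' ((p : ℚ) * h₀) ∧ v.HasOrd B' 0 ∧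
        B' - A' = B - A + 3 * e ∧ -(A' * B') = 3 * e ^ 2 + 2 * e * (B - A) - A * B ∧
        e * (e - A) * (e + B) = 0)
    (P P' : W.toAffine.Point) (hP : p • P = 0) (hP' : p • P' = 0)
    (hX : ptX P' = σ (ptX P)) (hY : ptY P' = σ (ptY P)) (h0 : P = 0 ↔ P' = 0) :
    P' = P := by
  by_cases hP0 : P = 0
  · rw [hP0]; exact h0.mp hP0
  have hP'0 : P' ≠ 0 := fun h => hP0 (h0.mpr h)
  have h2K : (2 : K) ≠ 0 := h2.ne_zero
  have hM := multSeq_of_torsion hW h2K hpp hp5 hP0 hP
  have hXge : 0 ≤ v.ord (ptX (1 • P)) := hM.ord_nonneg v hp5 hA hB h2 hpv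
  rw [one_smul] at hXge
  have hXP : v.Ge 0 (ptX P) := Or.inr hXge
  have hXP' : v.Ge 0 (ptX P') := by
    rw [hX]
    by_cases hz : σ (ptX P) = 0
    · exact Or.inl hz
    · exact Or.inr (by rw [hσord]; exact hXge)
  have hcurve := ptY_sq hW P
  have hY0 : ptY P ≠ 0 := by
    intro hY0
    have := hM.nondeg 1 le_rfl (by omega)
    simp only [one_smul] at this
    apply this
    rw [← hcurve, hY0]; ring
  have hYge : v.Ge 0 (ptY P) := by
    refine Or.inr ?_
    have h1 : v.Ge 0 (ptY P ^ 2) := by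
      rw [hcurve]
      have := (hXP.mul (hXP.sub hA)).mul (hXP.add hB)
      simpa using this
    have h3 := h1.le_ord (pow_ne_zero 2 hY0)
    rw [OrdFn.ord_pow hY0] at h3
    push_cast at h3
    linarith
  refine local_core v hW hpp hp5 h2 hpv hA hB hP0 hP'0 hP hP' hXP hXP' ?_
  rw [hX, hY]
  rcases hred with ⟨hA0, hB0, hAB0⟩ | ⟨e, A', B', h₀, hσe, he, hh₀, hA', hB', h1, h2', h3⟩
  · exact cert_good v h2 hA0 hB0 hAB0 hXP hY0 hcurve (hσres _ hXP) (hσres _ hYge)
  · have := cert_mult v hM hpp hp5 h2 hA hB σ hσres π hπ hσπ hσe he hh₀ hA' hB' h1 h2' h3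
      (by simpa using hXP) (Y := ptY P) (by simpa using hcurve)
    simpa using this

theorem ptX_smul {R : Type*} [CommRing R] {K : Type*} [Field K] [DecidableEq K] [Algebra R K]
    {S : Type*} [CommRing S] [Algebra R S] [Algebra S K] [IsScalarTower R S K]
    (W' : WeierstrassCurve.Affine R) (σ : K ≃ₐ[S] K) (P : (W'⁄K).Point) :
    ptX (W := W'⁄K) (σ • P) = σ (ptX (W := W'⁄K) P) := by
  rw [algEquiv_smul_def]
  rcases P with _ | ⟨x, y, h⟩
  · simp [ptX, ← Point.zero_def]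
  · simp [ptX, Point.map_some, map_ofNat]

theorem ptY_smul {R : Type*} [CommRing R] {K : Type*} [Field K] [DecidableEq K] [Algebra R K]
    {S : Type*} [CommRing S] [Algebra R S] [Algebra S K] [IsScalarTower R S K]
    (W' : WeierstrassCurve.Affine R) (σ : K ≃ₐ[S] K) (P : (W'⁄K).Point) :
    ptY (W := W'⁄K) (σ • P) = σ (ptY (W := W'⁄K) P) := by
  rw [algEquiv_smul_def]
  rcases P with _ | ⟨x, y, h⟩
  · simp [ptY, ← Point.zero_def]
  · simp [ptY, Point.map_some, map_ofNat]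

theorem result (P : FreyPackage) {q : ℕ} (hq : q.Prime) (hq2 : q ≠ 2) (hqp : q ≠ P.p) : P.GaloisRepUnramifiedAt q := by
  intro A hA σ hσ x
  obtain ⟨v, hvq, hvint, hσord, hσres⟩ := exists_ordFn q hq A hA
  obtain ⟨x, hx⟩ := x
  apply Subtype.ext
  show σ • x = x
  have hW := isFreyModel_freyCurve P (AlgebraicClosure ℚ)
  have h2 : v.HasOrd (2 : AlgebraicClosure ℚ) 0 := by
    have h := hvint 2 (by norm_num)
    have h0 : padicValInt q 2 = 0 := by
      apply padicValInt.eq_zero_of_not_dvd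
      intro hdvd
      have : q ∣ 2 := by exact_mod_cast hdvd
      exact hq2 ((Nat.prime_dvd_prime_iff_eq hq Nat.prime_two).mp this)
    rw [h0] at h
    simpa using h
  have hpv : v.HasOrd (P.p : AlgebraicClosure ℚ) 0 := by
    have h := hvint P.p (by exact_mod_cast P.hp0)
    have h0 : padicValInt q P.p = 0 := by
      apply padicValInt.eq_zero_of_not_dvd
      intro hdvd
      have : q ∣ P.p := by exact_mod_cast hdvd
      exact hqp ((Nat.prime_dvd_prime_iff_eq hq P.pp).mp this)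
    rw [h0] at h
    simpa using h
  have hx' : P.p • x = 0 := by
    have := (Submodule.mem_torsionBy_iff _ _).mp hx
    simpa using this
  have hσx : P.p • (σ • x) = 0 := by
    have := (Submodule.mem_torsionBy_iff _ _).mp (smul_mem_torsionBy σ hx)
    simpa using this
  exact local_fixed v hW P.pp P.hp5 h2 hpv (OrdFn.ge_intCast _) (OrdFn.ge_intCast _)
    (σ : AlgebraicClosure ℚ →+* AlgebraicClosure ℚ) (hσord σ hσ) (hσres σ hσ)
    (q : AlgebraicClosure ℚ) hvq (by simp)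
    (frey_hred P hq hq2 v hvint (σ : AlgebraicClosure ℚ →+* AlgebraicClosure ℚ))
    x (σ • x) hx' hσx (ptX_smul _ σ x) (ptY_smul _ σ x)
    ⟨fun h => by rw [h]; rfl, fun h => by
      rw [algEquiv_smul_def] at h
      exact Point.map_injective σ.toAlgHom (h.trans (Point.map_zero σ.toAlgHom).symm)⟩

end Fermat.Agent.S05
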