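import Fermat.Statements.S07
import Fermat.Prelude.Thm_ModularForm_sturm_bound_Gamma0
import Fermat.Prelude.Thm_CongruenceSubgroup_one_mem_strictPeriods_Gamma0

set_option autoImplicit false
open WeierstrassCurve WeierstrassCurve.Affine WeierstrassCurve.Affine.Point
open CuspForm ModularFormClass UpperHalfPlane
open ModularForm

namespace Fermat.Agent.S07

open scoped MatrixGroups

/-- The first column of a matrix in `SL(2, ℤ)` reduced mod 2. -/
def colModTwo (g : SL(2, ℤ)) : ZMod 2 × ZMod 2 := ((g 0 0 : ZMod 2), (g 1 0 : ZMod 2))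

theorem inv_mul_mem_Gamma0_two {g h : SL(2, ℤ)} (hgh : colModTwo g = colModTwo h) :
    g⁻¹ * h ∈ CongruenceSubgroup.Gamma0 2 := by
  rw [CongruenceSubgroup.Gamma0_mem]
  have h0 : ((g 0 0 : ℤ) : ZMod 2) = (h 0 0 : ZMod 2) := congrArg Prod.fst hgh
  have h1 : ((g 1 0 : ℤ) : ZMod 2) = (h 1 0 : ZMod 2) := congrArg Prod.snd hgh
  have key : (g⁻¹ * h) 1 0 = -(g 1 0) * h 0 0 + g 0 0 * h 1 0 := by
    simp [Matrix.SpecialLinearGroup.coe_mul, Matrix.SpecialLinearGroup.coe_inv,
      Matrix.mul_apply, Fin.sum_univ_two, Matrix.adjugate_fin_two]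
  rw [key]
  push_cast
  rw [h0, h1]
  ring

theorem index_Gamma0_two_le : (CongruenceSubgroup.Gamma0 2).index ≤ 4 := by
  classical
  have hinj : Function.Injective
      (fun q : SL(2, ℤ) ⧸ CongruenceSubgroup.Gamma0 2 => colModTwo q.out) := by
    intro q q' hqq'
    have hmem := inv_mul_mem_Gamma0_two hqq'
    rw [← QuotientGroup.out_eq' q, ← QuotientGroup.out_eq' q']
    exact QuotientGroup.eq.mpr hmem
  have hle := Nat.card_le_card_of_injective _ hinj
  have hcard : Nat.card (ZMod 2 × ZMod 2) = 4 := by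
    rw [Nat.card_prod, Nat.card_zmod]
  rw [hcard] at hle
  exact hle

theorem result (f : CuspForm (CongruenceSubgroup.Gamma0 2) 2) : f = 0 := by
  have hF : (f : ModularForm (CongruenceSubgroup.Gamma0 2) 2) = 0 := by
    apply ModularForm.sturm_bound_Gamma0 2
    intro n hn
    have hidx := index_Gamma0_two_le
    have hn0 : n = 0 := by
      have : (2 * ((CongruenceSubgroup.Gamma0 2).index : ℤ)).toNat / 12 = 0 := by
        omega
      omega
    subst hn0
    exact CuspFormClass.qExpansion_coeff_zero f one_pos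
      (CongruenceSubgroup.one_mem_strictPeriods_Gamma0 2)
  ext z
  have := DFunLike.congr_fun hF z
  simpa using this

end Fermat.Agent.S07
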