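-- Statement S10 (frey_no_cofixed_small): a Frey package with p ∈ {5, 7, 13} cannot exist, by the
-- classical (Kummer) proof of Fermat's Last Theorem for these exponents:
--   * case I  : Sophie Germain's theorem                      (Fermat.Agent.S10.CaseI, helper35)
--   * case II : Kummer's descent in ℤ[ζ_p]                    (Fermat.Agent.S10.CaseII, helper10)
--   * ℤ[ζ_p] is a PID for p = 5 (Mathlib), 7, 13              (Fermat.Agent.S10.Helper44*, helper44)
--   * Kummer's lemma on units for p = 5, 7, 13                (Fermat.Agent.S10.Kummer*, helper73)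
import Fermat.Statements.S10
import Fermat.Agent.S10.CaseI
import Fermat.Agent.S10.CaseII
import Fermat.Agent.S10.KummerCheck
import Fermat.Agent.S10.Helper44PID
import Fermat.Agent.S10.Helper44P13

set_option autoImplicit false
open WeierstrassCurve WeierstrassCurve.Affine WeierstrassCurve.Affine.Point
open CuspForm ModularFormClass UpperHalfPlane
open FreyPackage

namespace Fermat.Agent.S10

open NumberField

/-- Fermat's Last Theorem for exponent `5` (coprime form). -/
theorem flt_five {a b c : ℤ} (hab : IsCoprime a b) (ha : a ≠ 0) (hb : b ≠ 0) (hc : c ≠ 0) :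
    a ^ 5 + b ^ 5 ≠ c ^ 5 := by
  have : Fact (Nat.Prime 5) := ⟨by norm_num⟩
  have : IsCyclotomicExtension {5} ℚ (CyclotomicField 5 ℚ) :=
    CyclotomicField.isCyclotomicExtension 5 ℚ
  have := IsCyclotomicExtension.Rat.five_pid (CyclotomicField 5 ℚ)
  exact flt_of_caseI_of_pid_of_kummer (p := 5) (by norm_num) (CyclotomicField 5 ℚ)
    (fun u n h => kummer_five _ u n (by exact_mod_cast h)) (fun hab h => caseI_five hab h)
    hab ha hb hc

/-- Fermat's Last Theorem for exponent `7` (coprime form). -/
theorem flt_seven {a b c : ℤ} (hab : IsCoprime a b) (ha : a ≠ 0) (hb : b ≠ 0) (hc : c ≠ 0) :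
    a ^ 7 + b ^ 7 ≠ c ^ 7 := by
  have : Fact (Nat.Prime 7) := ⟨by norm_num⟩
  have : IsCyclotomicExtension {7} ℚ (CyclotomicField 7 ℚ) :=
    CyclotomicField.isCyclotomicExtension 7 ℚ
  have := pid_seven (CyclotomicField 7 ℚ)
  exact flt_of_caseI_of_pid_of_kummer (p := 7) (by norm_num) (CyclotomicField 7 ℚ)
    (fun u n h => kummer_seven _ u n (by exact_mod_cast h)) (fun hab h => caseI_seven hab h)
    hab ha hb hc

/-- Fermat's Last Theorem for exponent `13` (coprime form). -/
theorem flt_thirteen {a b c : ℤ} (hab : IsCoprime a b) (ha : a ≠ 0) (hb : b ≠ 0) (hc : c ≠ 0) :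
    a ^ 13 + b ^ 13 ≠ c ^ 13 := by
  have : Fact (Nat.Prime 13) := ⟨by norm_num⟩
  have : IsCyclotomicExtension {13} ℚ (CyclotomicField 13 ℚ) :=
    CyclotomicField.isCyclotomicExtension 13 ℚ
  have := pid_thirteen (CyclotomicField 13 ℚ)
  exact flt_of_caseI_of_pid_of_kummer (p := 13) (by norm_num) (CyclotomicField 13 ℚ)
    (fun u n h => kummer_thirteen _ u n (by exact_mod_cast h)) (fun hab h => caseI_thirteen hab h)
    hab ha hb hc

theorem result (P : FreyPackage) (hp : P.p = 5 ∨ P.p = 7 ∨ P.p = 13) : ¬ HasGaloisStableCofixedLine (K := AlgebraicClosure ℚ) ℚ P.freyCurve P.p := by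
  exfalso
  have hab : IsCoprime P.a P.b := by
    rw [Int.isCoprime_iff_gcd_eq_one]
    have h := P.hgcdab
    rw [← Int.coe_gcd] at h
    exact_mod_cast h
  have hF := P.hFLT
  rcases hp with h | h | h
  · rw [h] at hF; exact flt_five hab P.ha0 P.hb0 P.hc0 hF
  · rw [h] at hF; exact flt_seven hab P.ha0 P.hb0 P.hc0 hF
  · rw [h] at hF; exact flt_thirteen hab P.ha0 P.hb0 P.hc0 hF

end Fermat.Agent.S10
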