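-- Statement S11: the mod-11 representation of the Frey curve has no Galois-stable cofixed line.
-- Proof: a Frey package with `p = 11` does not exist, by Kummer's proof of Fermat's Last Theorem
-- for the exponent 11 (case I: Sophie Germain with the auxiliary prime 23; case II: descent in
-- `ℤ[ζ₁₁]`, which is a PID and satisfies Kummer's lemma).
import Fermat.Statements.S11
import Fermat.Agent.S11.CaseI
import Fermat.Agent.S11.CaseII
import Fermat.Agent.S10.KummerCheck
import Fermat.Agent.S10.PidEleven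

set_option autoImplicit false
open WeierstrassCurve WeierstrassCurve.Affine WeierstrassCurve.Affine.Point
open CuspForm ModularFormClass UpperHalfPlane
open FreyPackage

namespace Fermat.Agent.S11

open NumberField in
/-- Fermat's Last Theorem for the exponent `11`, in the form needed below. -/
theorem flt_eleven {a b c : ℤ} (hab : IsCoprime a b) (hac : IsCoprime a c) (hbc : IsCoprime b c)
    (ha : a ≠ 0) (hb : b ≠ 0) (hc : c ≠ 0) : a ^ 11 + b ^ 11 ≠ c ^ 11 := by
  intro h
  have hF : Fact (Nat.Prime 11) := ⟨by norm_num⟩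
  have hcyc : IsCyclotomicExtension {11} ℚ (CyclotomicField 11 ℚ) :=
    CyclotomicField.isCyclotomicExtension 11 ℚ
  have hpid : IsPrincipalIdealRing (𝓞 (CyclotomicField 11 ℚ)) :=
    Fermat.Agent.S10.eleven_pid (CyclotomicField 11 ℚ)
  have hk : ∀ (u : (𝓞 (CyclotomicField 11 ℚ))ˣ) (n : ℤ),
      ((11 : ℕ) : 𝓞 (CyclotomicField 11 ℚ)) ∣ (u : 𝓞 (CyclotomicField 11 ℚ)) - (n : 𝓞 (CyclotomicField 11 ℚ)) →
      ∃ v : (𝓞 (CyclotomicField 11 ℚ))ˣ, u = v ^ 11 :=
    fun u n hd => Fermat.Agent.S10.kummer_eleven _ u n (by exact_mod_cast hd)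
  have key : ∀ {x y z : ℤ}, IsCoprime x y → z ≠ 0 → (11 : ℤ) ∣ z → x ^ 11 + y ^ 11 ≠ z ^ 11 :=
    fun {x y z} hxy hz hdz =>
      caseII (p := 11) (by norm_num) (CyclotomicField 11 ℚ) hk hxy hz (by exact_mod_cast hdz)
  -- case I
  have hdvd : (11 : ℤ) ∣ a * b * c := by
    by_contra hnd
    exact caseI_eleven hab hnd h
  have hprime : Prime (11 : ℤ) := by norm_num
  rcases hprime.dvd_or_dvd hdvd with hd | hd
  · rcases hprime.dvd_or_dvd hd with hd | hd
    · -- `11 ∣ a`: `c ^ 11 + (-b) ^ 11 = a ^ 11`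
      refine key (x := c) (y := -b) hbc.symm.neg_right ha hd ?_
      rw [Odd.neg_pow (by decide)]
      linarith
    · -- `11 ∣ b`: `c ^ 11 + (-a) ^ 11 = b ^ 11`
      refine key (x := c) (y := -a) hac.symm.neg_right hb hd ?_
      rw [Odd.neg_pow (by decide)]
      linarith
  · exact key hab hc hd h

/-- There is no Frey package with `p = 11`. -/
theorem no_frey_eleven (P : FreyPackage) (hp : P.p = 11) : False := by
  have hFLT : P.a ^ 11 + P.b ^ 11 = P.c ^ 11 := by
    have := P.hFLT
    rwa [hp] at this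
  have cop : ∀ {x y : ℤ}, gcd x y = 1 → IsCoprime x y := by
    intro x y hxy
    rw [Int.isCoprime_iff_gcd_eq_one]
    rw [← Int.coe_gcd] at hxy
    exact_mod_cast hxy
  exact flt_eleven (cop P.hgcdab) (cop P.hgcdac) (cop P.hgcdbc) P.ha0 P.hb0 P.hc0 hFLT

theorem result (P : FreyPackage) (hp : P.p = 11) : ¬ HasGaloisStableCofixedLine (K := AlgebraicClosure ℚ) ℚ P.freyCurve P.p := by
  exact (no_frey_eleven P hp).elim

end Fermat.Agent.S11
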