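import Fermat.Statements.S13
import Fermat.Agent.S05
import Fermat.Agent.S13.Defs
import Fermat.Agent.S13.TorsionMain
import Fermat.Agent.S13.Global
import Fermat.Agent.S13.Open
import Fermat.Agent.S13.Unipotent
import Fermat.Agent.S13.NoFixed
import Fermat.Agent.S13.PInertia

set_option autoImplicit false
open WeierstrassCurve WeierstrassCurve.Affine WeierstrassCurve.Affine.Point
open CuspForm ModularFormClass UpperHalfPlane
open FreyPackage

namespace Fermat.Agent.S13

section Glue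

variable (P : FreyPackage)

/-- Galois acts `ℕ`-linearly. -/
theorem h13_smul_nsmul (σ : GQ) (k : ℕ) (x : Tors P) : σ • (k • x) = k • (σ • x) :=
  map_nsmul (DistribSMul.toAddMonoidHom (Tors P) σ) k x

/-- the pointwise stabiliser of a stable submodule `N`. -/
def h13_H₁ (N : Submodule (ZMod P.p) (Tors P)) : Subgroup GQ where
  carrier := {σ | ∀ x ∈ N, σ • x = x}
  one_mem' := fun x _ => one_smul _ x
  mul_mem' := by
    intro σ τ hσ hτ x hx
    rw [mul_smul, hτ x hx, hσ x hx]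
  inv_mem' := by
    intro σ hσ x hx
    conv_lhs => rw [← hσ x hx]
    rw [inv_smul_smul]

/-- the elements acting trivially on `V / N`. -/
def h13_H₂ (N : Submodule (ZMod P.p) (Tors P)) (hN : IsGaloisStable ℚ N) : Subgroup GQ where
  carrier := {σ | ∀ x : Tors P, σ • x - x ∈ N}
  one_mem' := fun x => by simp
  mul_mem' := by
    intro σ τ hσ hτ x
    have e : (σ * τ) • x - x = σ • (τ • x - x) + (σ • x - x) := by
      rw [mul_smul, smul_sub]; abel
    rw [e]
    exact N.add_mem (hN σ _ (hτ x)) (hσ x)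
  inv_mem' := by
    intro σ hσ x
    have e : σ⁻¹ • x - x = -(σ⁻¹ • (σ • x - x)) := by
      rw [smul_sub, inv_smul_smul]; abel
    rw [e]
    exact N.neg_mem (hN σ⁻¹ _ (hσ x))

theorem h13_mem_H₁ {N : Submodule (ZMod P.p) (Tors P)} {σ : GQ} :
    σ ∈ h13_H₁ P N ↔ ∀ x ∈ N, σ • x = x := Iff.rfl

theorem h13_mem_H₂ {N : Submodule (ZMod P.p) (Tors P)} {hN : IsGaloisStable ℚ N} {σ : GQ} :
    σ ∈ h13_H₂ P N hN ↔ ∀ x : Tors P, σ • x - x ∈ N := Iff.rfl

theorem h13_H₁_normal (N : Submodule (ZMod P.p) (Tors P)) (hN : IsGaloisStable ℚ N) :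
    (h13_H₁ P N).Normal := by
  refine ⟨fun σ hσ g x hx => ?_⟩
  rw [mul_smul, mul_smul, hσ _ (hN g⁻¹ x hx), smul_inv_smul]

theorem h13_H₂_normal (N : Submodule (ZMod P.p) (Tors P)) (hN : IsGaloisStable ℚ N) :
    (h13_H₂ P N hN).Normal := by
  refine ⟨fun σ hσ g x => ?_⟩
  have e : (g * σ * g⁻¹) • x - x = g • (σ • (g⁻¹ • x) - g⁻¹ • x) := by
    rw [mul_smul, mul_smul, smul_sub, smul_inv_smul]
  rw [e]
  exact hN g _ (hσ _)

/-- the pointwise stabiliser of the (finite) torsion module is open. -/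
theorem h13_isOpen_fix : IsOpen {σ : GQ | ∀ x : Tors P, σ • x = x} := by
  have := torsion_finite P
  have : {σ : GQ | ∀ x : Tors P, σ • x = x} = ⋂ x : Tors P, {σ : GQ | σ • x = x} := by
    ext σ; simp
  rw [this]
  exact isOpen_iInter_of_finite fun x => isOpen_stabilizer P x

theorem h13_H₁_isOpen (N : Submodule (ZMod P.p) (Tors P)) :
    IsOpen ((h13_H₁ P N : Subgroup GQ) : Set GQ) := by
  apply Subgroup.isOpen_of_mem_nhds
  refine Filter.mem_of_superset ((h13_isOpen_fix P).mem_nhds (fun x => one_smul _ x)) ?_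
  intro σ hσ x _
  exact hσ x

theorem h13_H₂_isOpen (N : Submodule (ZMod P.p) (Tors P)) (hN : IsGaloisStable ℚ N) :
    IsOpen ((h13_H₂ P N hN : Subgroup GQ) : Set GQ) := by
  apply Subgroup.isOpen_of_mem_nhds
  refine Filter.mem_of_superset ((h13_isOpen_fix P).mem_nhds (fun x => one_smul _ x)) ?_
  intro σ hσ x
  show σ • x - x ∈ N
  rw [hσ x, sub_self]
  exact N.zero_mem

end Glue

section LinAlg

variable (P : FreyPackage)

/-- Galois acts `ZMod p`-linearly. -/
theorem h13_smul_zmod_smul (σ : GQ) (c : ZMod P.p) (x : Tors P) :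
    σ • (c • x) = c • (σ • x) := by
  have : NeZero P.p := ⟨P.hp0⟩
  rw [← ZMod.natCast_zmod_val c, Nat.cast_smul_eq_nsmul, Nat.cast_smul_eq_nsmul, h13_smul_nsmul]

/-- ranks: a stable proper nonzero submodule is a line in a plane. -/
theorem h13_finrank (N : Submodule (ZMod P.p) (Tors P)) (hbot : N ≠ ⊥) (htop : N ≠ ⊤) :
    have : Fact P.p.Prime := ⟨P.pp⟩
    Module.finrank (ZMod P.p) N = 1 ∧ Module.finrank (ZMod P.p) (Tors P) = 2 := by
  have : Fact P.p.Prime := ⟨P.pp⟩
  have hfin := torsion_finite P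
  have : Module.Finite (ZMod P.p) (Tors P) := Module.Finite.of_finite
  have hcard := torsion_card_le P
  rw [Module.natCard_eq_pow_finrank (K := ZMod P.p), Nat.card_zmod] at hcard
  have h2 : Module.finrank (ZMod P.p) (Tors P) ≤ 2 :=
    (Nat.pow_le_pow_iff_right P.pp.one_lt).mp hcard
  have h1 : Module.finrank (ZMod P.p) N < Module.finrank (ZMod P.p) (Tors P) :=
    Submodule.finrank_lt htop
  have h0 : Module.finrank (ZMod P.p) N ≠ 0 := fun h => hbot (Submodule.finrank_eq_zero.mp h)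
  omega

variable {P}

/-- an element with `(σ - 1)² = 0` acts trivially on a stable line. -/
theorem h13_unip_H₁ {N : Submodule (ZMod P.p) (Tors P)} (hN : IsGaloisStable ℚ N)
    (hbot : N ≠ ⊥) (htop : N ≠ ⊤) {σ : GQ}
    (hu : ∀ x : Tors P, σ • (σ • x - x) = σ • x - x) : ∀ x ∈ N, σ • x = x := by
  have : Fact P.p.Prime := ⟨P.pp⟩
  obtain ⟨hr1, -⟩ := h13_finrank P N hbot htop
  intro x hx
  by_cases hx0 : x = 0
  · rw [hx0, smul_zero]
  have hx0' : (⟨x, hx⟩ : N) ≠ 0 := fun h => hx0 (congrArg Subtype.val h)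
  obtain ⟨c, hc⟩ := (finrank_eq_one_iff_of_nonzero' (⟨x, hx⟩ : N) hx0').mp hr1 ⟨σ • x, hN σ x hx⟩
  have hc' : σ • x = c • x := by
    have := congrArg Subtype.val hc
    simpa using this.symm
  have h1 := hu x
  rw [hc', smul_sub, h13_smul_zmod_smul, hc'] at h1
  have h2 : ((c - 1) * (c - 1)) • x = 0 := by
    have e : ((c - 1) * (c - 1)) • x = c • c • x - c • x - (c • x - x) := by
      rw [mul_smul, sub_smul, sub_smul, one_smul, smul_sub, one_smul]
    rw [e, h1, sub_self]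
  rcases smul_eq_zero.mp h2 with h3 | h3
  · have hc1 : c = 1 := by
      rcases mul_eq_zero.mp h3 with h | h <;> exact sub_eq_zero.mp h
    rw [hc', hc1, one_smul]
  · exact absurd h3 hx0

/-- an element with `(σ - 1)² = 0` acts trivially on the quotient by a stable line. -/
theorem h13_unip_H₂ {N : Submodule (ZMod P.p) (Tors P)} (hN : IsGaloisStable ℚ N)
    (hbot : N ≠ ⊥) (htop : N ≠ ⊤) {σ : GQ}
    (hu : ∀ x : Tors P, σ • (σ • x - x) = σ • x - x) : ∀ x : Tors P, σ • x - x ∈ N := by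
  have : Fact P.p.Prime := ⟨P.pp⟩
  obtain ⟨hr1, hr2⟩ := h13_finrank P N hbot htop
  have hfin := torsion_finite P
  have : Module.Finite (ZMod P.p) (Tors P) := Module.Finite.of_finite
  intro x
  by_cases hx : x ∈ N
  · exact N.sub_mem (hN σ x hx) hx
  -- `N ⊔ span {x} = ⊤`
  have hlt : N < N ⊔ Submodule.span (ZMod P.p) {x} := by
    refine lt_of_le_of_ne le_sup_left fun h => hx ?_
    rw [h]
    exact Submodule.mem_sup_right (Submodule.mem_span_singleton_self x)
  have htop' : N ⊔ Submodule.span (ZMod P.p) {x} = ⊤ := by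
    apply Submodule.eq_top_of_finrank_eq
    have := Submodule.finrank_lt_finrank_of_lt hlt
    have hle := Submodule.finrank_le (N ⊔ Submodule.span (ZMod P.p) {x})
    omega
  have hmem : σ • x ∈ N ⊔ Submodule.span (ZMod P.p) {x} := by rw [htop']; trivial
  obtain ⟨n, hn, z, hz, hnz⟩ := Submodule.mem_sup.mp hmem
  obtain ⟨c, rfl⟩ := Submodule.mem_span_singleton.mp hz
  have h1 := hu x
  -- `(c - 1)² • x ∈ N`
  have h2 : ((c - 1) * (c - 1)) • x ∈ N := by
    have e : ((c - 1) * (c - 1)) • x =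
        (σ • (σ • x - x) - (σ • x - x)) + (n - σ • n - (c - 1) • n) := by
      rw [← hnz, smul_sub, smul_add, h13_smul_zmod_smul, ← hnz, mul_smul, sub_smul, sub_smul,
        one_smul, smul_sub, one_smul, smul_add, sub_smul, one_smul]
      abel
    rw [e, h1, sub_self, zero_add]
    exact N.sub_mem (N.sub_mem hn (hN σ n hn)) (N.smul_mem _ hn)
  have hc1 : c = 1 := by
    by_contra hc
    have hne : (c - 1) * (c - 1) ≠ 0 := mul_ne_zero (sub_ne_zero.mpr hc) (sub_ne_zero.mpr hc)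
    apply hx
    have := N.smul_mem ((c - 1) * (c - 1))⁻¹ h2
    rwa [smul_smul, inv_mul_cancel₀ hne, one_smul] at this
  rw [← hnz, hc1, one_smul, add_sub_cancel_right]
  exact hn

end LinAlg

theorem result (P : FreyPackage) (hred : ¬ GaloisRepIsIrreducible (K := AlgebraicClosure ℚ) ℚ P.freyCurve P.p) : HasGaloisStableCofixedLine (K := AlgebraicClosure ℚ) ℚ P.freyCurve P.p := by
  have : Fact P.p.Prime := ⟨P.pp⟩
  -- a stable line
  have hnt : Nontrivial (Tors P) := by
    obtain ⟨x, hx⟩ := torsion_nontrivial P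
    exact ⟨⟨x, 0, hx⟩⟩
  obtain ⟨N, hN, hbot, htop⟩ : ∃ N : Submodule (ZMod P.p) (Tors P),
      IsGaloisStable ℚ N ∧ N ≠ ⊥ ∧ N ≠ ⊤ := by
    by_contra hcon
    apply hred
    refine ⟨hnt, fun N hN => ?_⟩
    by_contra h
    rw [not_or] at h
    exact hcon ⟨N, hN, h.1, h.2⟩
  obtain ⟨hr1, hr2⟩ := h13_finrank P N hbot htop
  have hfin := torsion_finite P
  have : Module.Finite (ZMod P.p) (Tors P) := Module.Finite.of_finite
  have hcardN : Nat.card N = P.p := by
    rw [Module.natCard_eq_pow_finrank (K := ZMod P.p), Nat.card_zmod, hr1, pow_one]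
  -- a valuation subring over `p`
  obtain ⟨A₀, -, hA₀, -⟩ := Fermat.Agent.S54.exists_isFrobeniusAt P.p P.pp
  -- primes `l ≠ p`: inertia lies in `H₁ ∩ H₂`
  have hother : ∀ l : ℕ, l.Prime → l ≠ P.p → ∃ A : ValuationSubring Qb, A.LiesOverPrime l ∧
      (∀ σ ∈ A.inertiaSubgroupIn ℚ, (∀ x ∈ N, σ • x = x) ∧ ∀ x : Tors P, σ • x - x ∈ N) := by
    intro l hl hlp
    obtain ⟨A, -, hA, -⟩ := Fermat.Agent.S54.exists_isFrobeniusAt l hl
    refine ⟨A, hA, fun σ hσ => ?_⟩
    by_cases hl2 : l = 2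
    · subst hl2
      have hu : ∀ x : Tors P, σ • (σ • x - x) = σ • x - x := two_unipotent P A hA σ hσ
      exact ⟨h13_unip_H₁ hN hbot htop hu, h13_unip_H₂ hN hbot htop hu⟩
    · have hunr := Fermat.Agent.S05.result P hl hl2 hlp A hA σ hσ
      refine ⟨fun x _ => hunr x, fun x => ?_⟩
      have hx : σ • x = x := hunr x
      rw [hx, sub_self]
      exact N.zero_mem
  rcases p_inertia P A₀ hA₀ N hN hcardN with h1 | h2
  · -- `H₁ = ⊤`: a rational point of order `p`, impossible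
    exfalso
    have := h13_H₁_normal P N hN
    have htop₁ : h13_H₁ P N = ⊤ := by
      apply glob_eq_top_of_inertia_le _ (h13_H₁_isOpen P N)
      intro l hl
      by_cases hlp : l = P.p
      · subst hlp
        exact ⟨A₀, hA₀, fun σ hσ => h1 σ hσ⟩
      · obtain ⟨A, hA, h⟩ := hother l hl hlp
        exact ⟨A, hA, fun σ hσ => (h σ hσ).1⟩
    obtain ⟨x, hxN, hx0⟩ := (Submodule.ne_bot_iff N).mp hbot
    apply hx0
    apply no_fixed_point P x
    intro σ
    have hσ : σ ∈ h13_H₁ P N := by rw [htop₁]; trivial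
    exact hσ x hxN
  · -- `H₂ = ⊤`: `N` is a cofixed line
    have := h13_H₂_normal P N hN
    have htop₂ : h13_H₂ P N hN = ⊤ := by
      apply glob_eq_top_of_inertia_le _ (h13_H₂_isOpen P N hN)
      intro l hl
      by_cases hlp : l = P.p
      · subst hlp
        exact ⟨A₀, hA₀, fun σ hσ => h2 σ hσ⟩
      · obtain ⟨A, hA, h⟩ := hother l hl hlp
        exact ⟨A, hA, fun σ hσ => (h σ hσ).2⟩
    refine ⟨N, hN, hbot, htop, fun σ x => ?_⟩
    have hσ : σ ∈ h13_H₂ P N hN := by rw [htop₂]; trivial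
    exact hσ x

end Fermat.Agent.S13
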