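-- Statement S14: the Ext-vanishing property `ExtVanishingCts p` for every prime `p ≥ 3`.
-- Final assembly (helper14) of the S14 team modules under Fermat/Agent/S14/:
--   bridge (BridgeGroup, BridgeKummer, BridgeData, BridgeRam), number-field core (Core, CoreThree),
--   class-group algebra + Thaine relation + density (ClassAlgFinal), units (Units).
import Fermat.Statements.S14
import Fermat.Agent.S14.BridgeData
import Fermat.Agent.S14.BridgeRam
import Fermat.Agent.S14.CoreThree
import Fermat.Agent.S14.ClassAlgFinal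
import Fermat.Agent.S14.Units

set_option autoImplicit false
open ExtCitation

namespace Fermat.Agent.S14

open IsDedekindDomain NumberField

/-- The number-field core: an `ω²`-eigen element of `ℤ[ζ_p]` which is singular away from `p` and
a `p`-th power modulo every power of `ζ - 1` is a `p`-th power. -/
theorem h14_core_isPow (p : ℕ) [Fact p.Prime] (hp : 3 ≤ p) (K : Type) [Field K] [NumberField K]
    [IsCyclotomicExtension {p} ℚ K] {ζ : K} (hζ : IsPrimitiveRoot ζ p) (α : 𝓞 K) (hα : α ≠ 0)
    (eig : ∀ (σ : K ≃ₐ[ℚ] K) (m : ℕ), σ ζ = ζ ^ m →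
      ∃ γ : K, σ (α : K) = (α : K) ^ (m ^ 2) * γ ^ p)
    (sing : ∀ v : HeightOneSpectrum (𝓞 K), (p : 𝓞 K) ∉ v.asIdeal →
      p ∣ (Associates.mk v.asIdeal).count (Associates.mk (Ideal.span {α})).factors)
    (loc : ∀ M : ℕ, ∃ x : 𝓞 K, (hζ.toInteger - 1) ^ M ∣ α - x ^ p) :
    ∃ β : K, (α : K) = β ^ p := by
  have hpp : p.Prime := Fact.out
  by_cases hp5 : 5 ≤ p
  · exact h98_core_of p hζ α hα eig sing loc
      (fun hs => exists_unit_mul_pow p hp K hζ α hα eig hs)
      (fun ε he hl => unit_isPow_of_eigen_of_local p hp5 K hζ ε he hl)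
  · have hp3 : p = 3 := by
      have h4 : p ≠ 4 := by
        rintro rfl
        exact absurd hpp (by decide)
      omega
    subst hp3
    exact h98_core_three hζ α hα eig (h98_span_eq_pow 3 hζ α hα sing loc)

theorem result {p : ℕ} [Fact p.Prime] (h3 : 3 ≤ p) :
    ExtCitation.ExtVanishingCts p := by
  intro V _ _ _ _ C hadm
  by_contra hns
  obtain ⟨K0, hnf, hcyc, ζ, hζ, α, θ, hα, hθ, hnot, heig, hunr, hsplit⟩ :=
    exists_bridge_datum p h3 hadm hns
  exact hnot (h14_core_isPow p h3 K0 hζ α hα heig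
    (fun v hv => bridge_sing p K0 ζ hζ α hα θ hθ hunr v hv)
    (fun M => bridge_loc p K0 ζ hζ α θ hθ hsplit M))

end Fermat.Agent.S14
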