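-- Statement S16 (row 15): the index of the Eisenstein ideal in the Hecke algebra `𝕋` of
-- weight-two cusp forms on `Γ₀(p)` is the Eisenstein numerator `(p - 1) / gcd(p - 1, 12)`.
--
-- Assembly (helper36) of the S16 project modules under `Fermat/Agent/S16/`:
-- * `Top.lean` : `𝕋 / I ≅ ℤ / ev(ker π)`, so the index is `n` as soon as
--     (UB) some Hecke polynomial `P` with `π P = 0` has Eisenstein value `n`, and
--     (LB) every Hecke polynomial `P` with `π P = 0` has Eisenstein value divisible by `n`;
-- * `UpperAsm.lean` + `NormSix.lean` : (UB), by duality from the key lemma "no weight-two form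
--     on `Γ₀(p)` is congruent to `1` modulo `ℓ^j`" (norm + Sturm, trace of the square,
--     evaluation at `ρ`), the levels `p < 5` via `S₂(Γ₀(p)) = 0`;
-- * `LowerBound.lean` : (LB), from the binary theta series `Ψ ≡ 1 mod 2` of weight two.
import Fermat.Statements.S16
import Fermat.Agent.S16.Top
import Fermat.Agent.S16.UpperAsm
import Fermat.Agent.S16.NormSix
import Fermat.Agent.S16.LowerBound

set_option autoImplicit false
open ModularCurve CuspForm
open ModularCurve

namespace Fermat.Agent.S16

theorem result
    (p : ℕ) [Fact p.Prime] :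
    Nat.card (↥(heckeLatticeAlgebra p ∅) ⧸
        Ideal.map ((latticeRestrictHom p ∅).toRingHom.comp (heckeEvalForms p 2))
          (eisensteinIdeal p)) =
      eisensteinNumerator p :=
  h36_card_quot_eq p (eisensteinNumerator p)
    (Nat.pos_of_ne_zero (h56_numerator_ne_zero (Fact.out : p.Prime).two_le))
    (hUB_of_normSix p
      (fun hp5 l hl hl5 Θ h => n6_noTheta_ge_five p l hp5 hl hl5 Θ h)
      (fun hp5 h3 Θ h => n6_noTheta_three p hp5 h3 Θ h))
    (lower_bound p)

end Fermat.Agent.S16
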