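-- Statement S21 (Eichler–Shimura): the period map pair is an isomorphism onto the parabolic homs.
-- Proof: injectivity by the maximum principle on the q-discs of the cusps (S21/MaxMod, S21/Symm),
-- upper bound for the parabolic homs by a Shapiro-lemma count on SL(2, ℤ) ⧸ Γ₀(N) (S21/Shapiro,
-- S21/UpperBound), and the dimension formula of statement S20.
import Fermat.Statements.S21
import Fermat.Agent.S20
import Fermat.Agent.S21.Asm

set_option autoImplicit false
open ModularCurve

namespace Fermat.Agent.S21

theorem result (N : ℕ) [NeZero N] :
    Function.Injective (ModularCurve.periodHomPair N)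
      ∧ LinearMap.range (ModularCurve.periodHomPair N)
          = ModularCurve.Period.parabolicHoms ℂ (CongruenceSubgroup.Gamma0 N) ℂ :=
  eichlerShimura_of_dim N (Fermat.Agent.S20.result N)

end Fermat.Agent.S21
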