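import Fermat.Statements.S24
import Fermat.Agent.S24.AsmBridgeB
import Fermat.Agent.S24.AsmDegree
import Fermat.Agent.S24.AsmCounts
import Fermat.Agent.S24.GenusCount
import Fermat.Agent.S24.GenusArith
import Fermat.Agent.S24.ModData

set_option autoImplicit false
open ModularCurve

namespace Fermat.Agent.S24

open AlgebraicCurve MatrixGroups IntermediateField in
attribute [local instance] ModularData.fieldM ModularData.algM ModularData.actM in
theorem asmAb_genus_eq (N : ℕ) [NeZero N]
    [AlgebraicCurve.HasCanonicalDivisor (K := AlgebraicClosure ℚ)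
      (F := ↥(ModularCurve.modularFunctionFieldBar N))] :
    (AlgebraicCurve.genus (AlgebraicClosure ℚ) ↥(ModularCurve.modularFunctionFieldBar N) : ℚ)
      = ModularCurve.genusFormula N := by
  obtain ⟨D⟩ := wpA_nonempty_modularData N
  obtain ⟨ι, hι, hΓ⟩ := asmAb_exists_iota N D
  set x : ↥(modularFunctionFieldBar N) := ⟨JJ 1, asmAb_JJ_mem N 1 (one_dvd N)⟩ with hxdef
  have hx : Transcendental Kbar x := asmAb_transcendental N
  have hιx : ι x = D.jd 1 := hι 1 (one_dvd N)
  obtain ⟨hfin, hdeg⟩ := asmA_finrank N D ι x ⟨JJ N, asmAb_JJ_mem N N dvd_rfl⟩ hιx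
    (hι N dvd_rfl) hΓ
  haveI := hfin
  obtain ⟨hgen, h0, h1728, hinf⟩ := asmB_counts N D ι x hx hιx hdeg hΓ
  have h0' : Nat.card {v : Place Kbar ↥(modularFunctionFieldBar N) //
      0 < v.ord (x - algebraMap Kbar ↥(modularFunctionFieldBar N) 0)} =
      numOrbits (MulAction.toPerm (ModularGroup.S * ModularGroup.T) :
        Equiv.Perm (Cosets N)) := by
    rw [map_zero, sub_zero]; exact h0
  have hpar := wp8_even N
  have hle := wp8_scott N
  have key := wp2g_genus_eq (K := Kbar) (F := ↥(modularFunctionFieldBar N)) x hx (0 : Kbar)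
    (1728 : Kbar) (by norm_num) (Nat.card (Cosets N))
    (numOrbits (MulAction.toPerm (ModularGroup.S * ModularGroup.T) : Equiv.Perm (Cosets N)))
    (numOrbits (MulAction.toPerm ModularGroup.S : Equiv.Perm (Cosets N)))
    (numOrbits (MulAction.toPerm ModularGroup.T : Equiv.Perm (Cosets N)))
    hdeg (fun a ha0 ha1 => by rw [hgen a ha0 ha1, hdeg]) h0' h1728 hinf
    (by
      have e : Nat.card (Cosets N) +
          numOrbits (MulAction.toPerm (ModularGroup.S * ModularGroup.T) : Equiv.Perm (Cosets N)) +
          numOrbits (MulAction.toPerm ModularGroup.S : Equiv.Perm (Cosets N)) +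
          numOrbits (MulAction.toPerm ModularGroup.T : Equiv.Perm (Cosets N)) =
          Nat.card (Cosets N) +
          numOrbits (MulAction.toPerm ModularGroup.S : Equiv.Perm (Cosets N)) +
          numOrbits (MulAction.toPerm ModularGroup.T : Equiv.Perm (Cosets N)) +
          numOrbits (MulAction.toPerm (ModularGroup.S * ModularGroup.T) :
            Equiv.Perm (Cosets N)) := by ring
      rw [e]; exact hpar)
    (by omega)
  have hgen_eq := wp8_genus_eq N ((Nat.card (Cosets N) : ℤ)
      - numOrbits (MulAction.toPerm (ModularGroup.S * ModularGroup.T) : Equiv.Perm (Cosets N))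
      - numOrbits (MulAction.toPerm ModularGroup.S : Equiv.Perm (Cosets N))
      - numOrbits (MulAction.toPerm ModularGroup.T : Equiv.Perm (Cosets N))) rfl
  have hg : ((2 * (AlgebraicCurve.genus Kbar ↥(modularFunctionFieldBar N) : ℤ)).toNat / 2 : ℕ)
      = AlgebraicCurve.genus Kbar ↥(modularFunctionFieldBar N) := by
    generalize AlgebraicCurve.genus Kbar ↥(modularFunctionFieldBar N) = g
    omega
  rw [← hgen_eq, ← key, hg]

theorem result (N : ℕ) [NeZero N]
    [AlgebraicCurve.HasCanonicalDivisor (K := AlgebraicClosure ℚ) (F := ↥(ModularCurve.modularFunctionFieldBar N))] :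
    (AlgebraicCurve.genus (AlgebraicClosure ℚ) ↥(ModularCurve.modularFunctionFieldBar N) : ℚ)
      = ModularCurve.genusFormula N := by
  exact asmAb_genus_eq N

end Fermat.Agent.S24
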