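-- Statement S28 (Igusa): the special fibre of the Igusa model of X_0(N) is integral for ℓ ∤ N.
-- Proof assembled from the modules Fermat/Agent/S28/*.lean (S28 team; plan and assembly helper52):
--   A1 ModEq (modular equation of prime level), A2 UnitEq (the modular unit Δ(pz)/Δ(z)),
--   A3 ThetaJ ((θJ)^6 = J^4 (J - 1728)^3 Δ), B JdIntegral + DegreeBound (characteristic 0),
--   C CharL (Igusa: [F_ℓ(J(q^d) : d ∣ N) : F_ℓ(J)] ≥ ψ(N)), D Chart* + Red* (the charts mod ℓ
--   embed in F_ℓ((q))), E Glue (schemes).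
import Fermat.Statements.S28
import Fermat.Agent.S28.Glue
import Fermat.Agent.S28.ChartAll
import Fermat.Agent.S28.CharL

set_option autoImplicit false
open AlgebraicGeometry CategoryTheory CategoryTheory.Limits ModularCurve ModularCurve.IgusaScheme
noncomputable section
set_option autoImplicit false
open ModularCurve ModularCurve.IgusaScheme

namespace Fermat.Agent.S28

set_option maxHeartbeats 4000000 in
set_option synthInstance.maxHeartbeats 400000 in
theorem result
    (N : ℕ) [NeZero N] (ℓ : ℕ) [Fact ℓ.Prime] (hℓN : ¬ ℓ ∣ N)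
    (K : Type) [Field K] [CharP K ℓ] [Algebra ↥(GaloisRep.ratLocalizedAt ℓ) K] :
    IsIntegral ↑(pullback (igusaTo N ℓ)
      (Spec.map (CommRingCat.ofHom (algebraMap ↥(GaloisRep.ratLocalizedAt ℓ) K)))) := by
  have h := h63_charts N ℓ (exists_independent ℓ N hℓN)
    (exists_monic_JdC_of_modEq fun p hp =>
      let ⟨Φ, h1, _, h3, _⟩ := exists_modular_equation p hp; ⟨Φ, h1, h3⟩) K
  exact isIntegral_pullback_igusaTo N ℓ K h.1 h.2.1 h.2.2

end Fermat.Agent.S28
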