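import Fermat.Statements.S29
import Fermat.Agent.S42.SkeletonCore65
import Fermat.Agent.S42.BLR75
import Fermat.Agent.S42.CycloChar92
import Fermat.Agent.S42.ChainTors46

set_option autoImplicit false
open CuspForm CuspForm.IsNormalizedEigenform

namespace Fermat.Agent.S29

open Fermat.Agent.S42 in
theorem result
    {N : ℕ} {g : CuspForm (CongruenceSubgroup.Gamma0 N) 2} (hg : g.IsNormalizedEigenform)
    {p : ℕ} (hp : p.Prime) {k : Type} [Field k] [CharP k p]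
    (φ : integralClosure ℤ ℂ →+* k) :
    ∃ ρ : ResidualGaloisRep k, ρ.IsAttachedTo g φ ∧
      ∀ ℓ : ℕ, ℓ.Prime → ¬ ℓ ∣ N * p → ρ.IsUnramifiedAt ℓ := by
  refine sk65_S29 (fun k _ _ W _ _ _ _ rho chi hq => blr75_main rho chi hq) ?_ ?_ hg hp φ
  · intro q hq
    have : Fact q.Prime := ⟨hq⟩
    exact ⟨ExtCitation.cycloChar q,
      fun ℓ hℓ hℓq A hA τ hτ => cy92_frob q hℓ hℓq A hA τ hτ,
      fun ℓ hℓ hℓq A hA s hs => cy92_inertia q hℓ hℓq A hA s hs,
      cy92_finiteLevel q⟩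
  · intro q hq M _ f hf k0 _ _ _ ψ
    have : Fact q.Prime := ⟨hq⟩
    exact pt46_W1_all M q Fermat.Agent.S24.phi hf ψ

end Fermat.Agent.S29
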