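-- Statement S49: Deligne–Serre lifting lemma for weight-2 cusp forms on Γ₀(N).
import Fermat.Statements.S49
import Fermat.Prelude.Thm_CuspForm_intLattice_fg
import Fermat.Prelude.Thm_CuspForm_mem_intLattice_of_mem_heckeAlgebra
import Fermat.Prelude.Thm_ModularFormClass_qCoeff_heckeT
import Fermat.Prelude.Thm_ModularFormClass_qCoeff_heckeU
import Fermat.Prelude.Thm_CongruenceSubgroup_one_mem_strictPeriods_Gamma0
import Fermat.Agent.S49.Algebra
import Fermat.Agent.S49.Recursion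

set_option autoImplicit false
open CuspForm EisensteinWeightOne CongruenceSubgroup ModularFormClass
open FLT FLT.AbstractIntegralStructure

namespace Fermat.Agent.S49

section Helpers

open UpperHalfPlane

variable {N : ℕ}

theorem one_mem_strictPeriods (N : ℕ) :
    (1 : ℝ) ∈ (Subgroup.map (Matrix.SpecialLinearGroup.mapGL ℝ) (Gamma0 N)).strictPeriods :=
  CongruenceSubgroup.one_mem_strictPeriods_Gamma0 N

theorem qCoeff_add (f g : CuspForm (Gamma0 N) 2) (n : ℕ) :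
    qCoeff ⇑(f + g) n = qCoeff ⇑f n + qCoeff ⇑g n := by
  simp only [qCoeff, FunLike.coe_add]
  rw [ModularForm.qExpansion_add one_pos (one_mem_strictPeriods N) f g, map_add]

theorem qCoeff_smul (c : ℂ) (f : CuspForm (Gamma0 N) 2) (n : ℕ) :
    qCoeff ⇑(c • f) n = c * qCoeff ⇑f n := by
  simp only [qCoeff, FunLike.coe_smul]
  rw [ModularForm.qExpansion_smul one_pos (one_mem_strictPeriods N) c f]
  simp

/-- The `n`-th `q`-coefficient as a linear functional on cusp forms. -/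
noncomputable def qCoeffLin (N n : ℕ) : CuspForm (Gamma0 N) 2 →ₗ[ℂ] ℂ where
  toFun f := qCoeff ⇑f n
  map_add' f g := qCoeff_add f g n
  map_smul' c f := by simpa using qCoeff_smul c f n

theorem qCoeffLin_apply (n : ℕ) (f : CuspForm (Gamma0 N) 2) :
    qCoeffLin N n f = qCoeff ⇑f n := rfl

theorem qCoeff_sub (f g : CuspForm (Gamma0 N) 2) (n : ℕ) :
    qCoeff ⇑(f - g) n = qCoeff ⇑f n - qCoeff ⇑g n :=
  map_sub (qCoeffLin N n) f g

theorem qCoeff_zero_eq (f : CuspForm (Gamma0 N) 2) : qCoeff ⇑f 0 = 0 :=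
  CuspFormClass.qExpansion_coeff_zero f one_pos (one_mem_strictPeriods N)

theorem eq_zero_of_qCoeff (f : CuspForm (Gamma0 N) 2) (h : ∀ n, qCoeff ⇑f n = 0) : f = 0 := by
  have hq : qExpansion 1 ⇑f = 0 := by
    ext n
    simpa [qCoeff] using h n
  have : Fact (IsCusp OnePoint.infty
      (Subgroup.map (Matrix.SpecialLinearGroup.mapGL ℝ) (Gamma0 N))) :=
    ⟨Subgroup.isCusp_of_mem_strictPeriods one_pos (one_mem_strictPeriods N)⟩
  have h0 : (⇑f : ℍ → ℂ) = 0 :=
    (UpperHalfPlane.qExpansion_eq_zero_iff one_pos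
      (SlashInvariantFormClass.periodic_comp_ofComplex f (one_mem_strictPeriods N))
      (ModularFormClass.holo f) (ModularFormClass.bdd_at_infty f)).mp hq
  exact DFunLike.coe_injective (h0.trans FunLike.coe_zero.symm)

theorem qCoeff_heckeTLin {p : ℕ} (hp : p.Prime) (hpN : ¬ p ∣ N) (f : CuspForm (Gamma0 N) 2)
    (n : ℕ) :
    qCoeff ⇑(CuspForm.heckeTLin 2 hp hpN f) n =
      qCoeff ⇑f (n * p) + if p ∣ n then (p : ℂ) * qCoeff ⇑f (n / p) else 0 := by
  rw [CuspForm.coe_heckeTLin_apply,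
    ModularFormClass.qCoeff_heckeT f (one_mem_strictPeriods N) hp.ne_zero n,
    ModularForm.coeffHeckeT_apply]
  norm_num

theorem qCoeff_heckeULin [NeZero N] {p : ℕ} (hp : p.Prime) (hpN : p ∣ N)
    (f : CuspForm (Gamma0 N) 2) (n : ℕ) :
    qCoeff ⇑(CuspForm.heckeULin 2 hpN f) n = qCoeff ⇑f (n * p) := by
  rw [CuspForm.coe_heckeULin_apply,
    ModularFormClass.qCoeff_heckeU f (one_mem_strictPeriods N) hp.ne_zero n,
    ModularForm.coeffHeckeU_apply]

theorem mem_intLattice_iff (f : CuspForm (Gamma0 N) 2) :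
    f ∈ CuspForm.intLattice N 2 ↔ ∀ n : ℕ, ∃ m : ℤ, qCoeff ⇑f n = (m : ℂ) :=
  P2MW.S_CuspForm_intLattice_fg.W3WsD.mem_intLattice_iff f

end Helpers

section Congruences

theorem three_dvd_bridgeProduct_coeff_sub (a : ℕ → ℤ) (n : ℕ) :
    (3 : ℤ) ∣ (bridgeProduct a).coeff n - a n := by
  have hE : e1Chi3In ℤ = 1 + PowerSeries.C (3 : ℤ) *
      PowerSeries.mk (fun n => if n = 0 then 0 else 2 * sigmaChi n) := by
    ext k
    simp only [e1Chi3In, e1Chi3, PowerSeries.coeff_map, PowerSeries.coeff_mk, map_add,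
      PowerSeries.coeff_one, PowerSeries.coeff_C_mul]
    split_ifs <;> simp
    ring
  rw [bridgeProduct, hE, mul_add, mul_one, map_add, PowerSeries.coeff_mk, add_sub_cancel_left,
    ← mul_assoc, mul_comm _ (PowerSeries.C 3), mul_assoc, PowerSeries.coeff_C_mul]
  exact dvd_mul_right _ _

theorem three_dvd_natCast_sub_chiNegThree (ℓ : ℕ) : (3 : ℤ) ∣ (ℓ : ℤ) - chiNegThree ℓ := by
  have h := Nat.mod_add_div ℓ 3
  have hlt : ℓ % 3 < 3 := Nat.mod_lt _ (by norm_num)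
  unfold chiNegThree
  split_ifs <;> omega

/-- The integral form `f₀` is a Hecke eigenform modulo `3`. -/
theorem three_dvd_hecke_coeff {N : ℕ} {a af : ℕ → ℤ}
    (heig : FormalHecke.IsEigensystem
      (fun ℓ => if ℓ ∣ N then 0 else ((chiNegThree ℓ : ℤ) : ℤ)) a)
    (haf : ∀ n, (3 : ℤ) ∣ af n - a n) {ℓ : ℕ} (hℓ : ℓ.Prime) (hℓN : ¬ ℓ ∣ N) (n : ℕ) :
    (3 : ℤ) ∣ af (n * ℓ) + (if ℓ ∣ n then (ℓ : ℤ) * af (n / ℓ) else 0) - a ℓ * af n := by
  have key : af (n * ℓ) + (if ℓ ∣ n then (ℓ : ℤ) * af (n / ℓ) else 0) - a ℓ * af n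
      = (af (n * ℓ) - a (n * ℓ)) + (if ℓ ∣ n then (ℓ : ℤ) * (af (n / ℓ) - a (n / ℓ)) +
          ((ℓ : ℤ) - chiNegThree ℓ) * a (n / ℓ) else 0) - a ℓ * (af n - a n) := by
    have h := heig.2 ℓ hℓ n
    simp only [if_neg hℓN] at h
    rw [mul_comm ℓ n] at h
    by_cases hd : ℓ ∣ n
    · simp only [if_pos hd] at h ⊢
      linear_combination h
    · simp only [if_neg hd] at h ⊢
      linear_combination h
  rw [key]
  refine dvd_sub (dvd_add (haf _) ?_) (Dvd.dvd.mul_left (haf _) _)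
  split_ifs
  · exact dvd_add (Dvd.dvd.mul_left (haf _) _)
      (Dvd.dvd.mul_right (three_dvd_natCast_sub_chiNegThree ℓ) _)
  · exact dvd_zero _

end Congruences

section Eigenform

variable {N : ℕ}

/-- A nonzero common eigenvector of all `T_p` (`p ∤ N`) and `U_p` (`p ∣ N`) can be normalised
to a normalised eigenform with the same eigenvalues. -/
theorem exists_normalized_of_eigenvector [NeZero N] (v : CuspForm (Gamma0 N) 2) (hv0 : v ≠ 0)
    (lam : ℕ → ℂ)
    (hT : ∀ (p : ℕ) (hp : p.Prime) (hpN : ¬ p ∣ N), CuspForm.heckeTLin 2 hp hpN v = lam p • v)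
    (hU : ∀ (p : ℕ) (_ : p.Prime) (hpN : p ∣ N), CuspForm.heckeULin 2 hpN v = lam p • v) :
    ∃ f : CuspForm (Gamma0 N) 2, f.IsNormalizedEigenform ∧
      ∀ p : ℕ, p.Prime → qCoeff ⇑f p = lam p := by
  set c : ℕ → ℂ := fun n => qCoeff ⇑v n with hcdef
  have hc : ∀ p, p.Prime → ∀ n, c (p * n) + (if p ∣ N then (0 : ℂ) else (p : ℂ)) *
      (if p ∣ n then c (n / p) else 0) = lam p * c n := by
    intro p hp n
    by_cases hpN : p ∣ N
    · have h := congrArg (fun g : CuspForm (Gamma0 N) 2 => qCoeff ⇑g n) (hU p hp hpN)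
      simp only [qCoeff_heckeULin hp hpN, qCoeff_smul] at h
      rw [if_pos hpN, zero_mul, add_zero, mul_comm p n]
      exact h
    · have h := congrArg (fun g : CuspForm (Gamma0 N) 2 => qCoeff ⇑g n) (hT p hp hpN)
      simp only [qCoeff_heckeTLin hp hpN, qCoeff_smul] at h
      rw [if_neg hpN, mul_comm p n, ← h]
      split_ifs <;> simp [hcdef]
  have hc1 : c 1 ≠ 0 := by
    intro h1
    apply hv0
    apply eq_zero_of_qCoeff
    intro n
    induction n using Nat.strong_induction_on with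
    | _ n ih =>
      rcases Nat.lt_or_ge n 2 with hn | hn
      · interval_cases n
        · exact qCoeff_zero_eq v
        · exact h1
      · obtain ⟨p, hp, hpn⟩ := Nat.exists_prime_and_dvd (show n ≠ 1 by omega)
        obtain ⟨m, rfl⟩ := hpn
        have hmpos : 0 < m := by
          rcases Nat.eq_zero_or_pos m with h0 | h0
          · subst h0
            simp at hn
          · exact h0
        have hm : m < p * m := by nlinarith [hp.two_le]
        have h := hc p hp m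
        have h2 : (if p ∣ m then c (m / p) else 0) = 0 := by
          split_ifs
          · exact ih _ (lt_of_le_of_lt (Nat.div_le_self _ _) hm)
          · rfl
        have h3 : c m = 0 := ih m hm
        rw [h2, h3, mul_zero, add_zero, mul_zero] at h
        exact h
  have hb1 : ∀ n, qCoeff ⇑((c 1)⁻¹ • v) n = (c 1)⁻¹ * c n := fun n => qCoeff_smul _ _ _
  have hbp : ∀ p, p.Prime → (c 1)⁻¹ * c p = lam p := by
    intro p hp
    have h := hc p hp 1
    rw [if_neg (Nat.Prime.not_dvd_one hp), mul_zero, add_zero, mul_one] at h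
    rw [h]
    field_simp
  have hb : FormalHecke.IsEigensystem (fun p : ℕ => if p ∣ N then (0 : ℂ) else (p : ℂ))
      (fun n => qCoeff ⇑((c 1)⁻¹ • v) n) := by
    refine ⟨?_, fun p hp n => ?_⟩
    · simp only [hb1]
      exact inv_mul_cancel₀ hc1
    · simp only [hb1]
      rw [hbp p hp]
      have h := hc p hp n
      split_ifs at h ⊢ <;> linear_combination (c 1)⁻¹ * h
  obtain ⟨hr1, hrmul, hrpow⟩ := isRecursive_of_isEigensystem hb
  refine ⟨(c 1)⁻¹ • v, ⟨hr1, hrmul, ?_, ?_⟩, fun p hp => ?_⟩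
  · intro p r hp hpN
    have h := hrpow p r hp
    simp only [if_neg hpN] at h
    exact h
  · intro p r hp hpN
    have h := hrpow p r hp
    simp only [if_pos hpN, zero_mul, sub_zero] at h
    exact h
  · rw [hb1, hbp p hp]

end Eigenform

theorem result
    {N : ℕ} [NeZero N] (h : CuspForm.HasIntegralBasis N) {a : ℕ → ℤ}
    (heig : FormalHecke.IsEigensystem
      (fun ℓ => if ℓ ∣ N then 0 else ((chiNegThree ℓ : ℤ) : ℤ)) a)
    (hreal : CuspForm.IsLatticeRealized N a) :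
    ∃ (f : CuspForm (Gamma0 N) 2) (_ : f.IsNormalizedEigenform)
      (𝔪' : Ideal (integralClosure ℤ ℂ)), 𝔪'.IsMaximal ∧
      ((3 : ℕ) : integralClosure ℤ ℂ) ∈ 𝔪' ∧
      ∀ (ℓ : ℕ) (_ : ℓ.Prime) (_ : ¬ ℓ ∣ N),
        ∃ c : integralClosure ℤ ℂ, (c : ℂ) = ModularFormClass.qCoeff f ℓ ∧
          c - (a ℓ : integralClosure ℤ ℂ) ∈ 𝔪' := by
  classical
  -- the lattice
  let L : Submodule ℤ (CuspForm (Gamma0 N) 2) := CuspForm.intLattice N 2
  have hfg : L.FG := CuspForm.intLattice_fg N 2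
  have hspan : Submodule.span ℂ (L : Set (CuspForm (Gamma0 N) 2)) = ⊤ := by
    rw [eq_top_iff, ← h]
    apply Submodule.span_mono
    intro f hf
    rw [SetLike.mem_coe, mem_intLattice_iff]
    intro n
    obtain ⟨m, hm⟩ := Subring.mem_bot.mp (hf n)
    exact ⟨m, hm.symm⟩
  -- the Hecke algebra
  let ρ : ↥(CuspForm.heckeAlgebra N 2 (∅ : Set ℕ)) →+* Module.End ℂ (CuspForm (Gamma0 N) 2) :=
    (CuspForm.heckeAlgebra N 2 (∅ : Set ℕ)).val.toRingHom
  have hρ : Function.Injective ρ := Subtype.val_injective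
  have hL : ∀ r : ↥(CuspForm.heckeAlgebra N 2 (∅ : Set ℕ)), ∀ x ∈ L, ρ r x ∈ L := fun r x hx =>
    CuspForm.mem_intLattice_of_mem_heckeAlgebra (by norm_num) r.2 hx
  -- the integral form
  obtain ⟨f₀, hf₀, af, haf, hdiv⟩ := hreal
  have hf₀L : f₀ ∈ L := by
    rw [mem_intLattice_iff]
    exact fun n => ⟨af n, (haf n).symm⟩
  have h3af : ∀ n, (3 : ℤ) ∣ af n - a n := fun n => by
    have h1 := hdiv n
    have h2 := three_dvd_bridgeProduct_coeff_sub a n
    have h3 := dvd_add h1 h2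
    rwa [sub_add_sub_cancel] at h3
  -- the ideal of Hecke operators killing `f₀` modulo `3`
  let I : Ideal ↥(CuspForm.heckeAlgebra N 2 (∅ : Set ℕ)) :=
    { carrier := {T | ∃ g ∈ L, ρ T f₀ = (3 : ℂ) • g}
      add_mem' := by
        rintro S T ⟨g, hg, hS⟩ ⟨g', hg', hT⟩
        exact ⟨g + g', L.add_mem hg hg', by
          rw [map_add, LinearMap.add_apply, hS, hT, smul_add]⟩
      zero_mem' := ⟨0, L.zero_mem, by simp⟩
      smul_mem' := by
        rintro S T ⟨g, hg, hT⟩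
        refine ⟨ρ S g, hL S g hg, ?_⟩
        rw [smul_eq_mul, map_mul, Module.End.mul_apply, hT, map_smul] }
  have hImem : ∀ T, T ∈ I ↔ ∃ g ∈ L, ρ T f₀ = (3 : ℂ) • g := fun T => Iff.rfl
  have hI : I ≠ ⊤ := by
    intro htop
    have h1 : (1 : ↥(CuspForm.heckeAlgebra N 2 (∅ : Set ℕ))) ∈ I := htop ▸ Submodule.mem_top
    obtain ⟨g, hg, h1g⟩ := (hImem _).1 h1
    rw [map_one, Module.End.one_apply] at h1g
    obtain ⟨m, hm⟩ := (mem_intLattice_iff g).1 hg 1
    have h2 : (af 1 : ℂ) = ((3 * m : ℤ) : ℂ) := by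
      rw [haf 1, h1g, qCoeff_smul, hm]
      push_cast
      ring
    have h3 : af 1 = 3 * m := by exact_mod_cast h2
    have h4 := h3af 1
    rw [heig.1, h3] at h4
    omega
  have h3I : ((3 : ℕ) : ↥(CuspForm.heckeAlgebra N 2 (∅ : Set ℕ))) ∈ I := by
    refine (hImem _).2 ⟨f₀, hf₀L, ?_⟩
    rw [map_natCast, Module.End.natCast_apply, ← Nat.cast_smul_eq_nsmul ℂ]
    norm_num
  have hTI : ∀ (ℓ : ℕ) (hℓ : ℓ.Prime) (hℓN : ¬ ℓ ∣ N),
      (CuspForm.heckeAlgebra.T hℓ hℓN (Set.notMem_empty ℓ) :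
        ↥(CuspForm.heckeAlgebra N 2 (∅ : Set ℕ))) -
        ((a ℓ : ℤ) : ↥(CuspForm.heckeAlgebra N 2 (∅ : Set ℕ))) ∈ I := by
    intro ℓ hℓ hℓN
    have hg₀ : ∀ n, ∃ m : ℤ,
        qCoeff ⇑(CuspForm.heckeTLin 2 hℓ hℓN f₀ - (a ℓ : ℂ) • f₀) n = ((3 * m : ℤ) : ℂ) := by
      intro n
      obtain ⟨m, hm⟩ := three_dvd_hecke_coeff heig h3af hℓ hℓN n
      refine ⟨m, ?_⟩
      rw [← hm, qCoeff_sub, qCoeff_smul, qCoeff_heckeTLin, ← haf, ← haf, ← haf]
      split_ifs <;> push_cast <;> ring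
    refine (hImem _).2 ⟨(3 : ℂ)⁻¹ • (CuspForm.heckeTLin 2 hℓ hℓN f₀ - (a ℓ : ℂ) • f₀), ?_, ?_⟩
    · rw [mem_intLattice_iff]
      intro n
      obtain ⟨m, hm⟩ := hg₀ n
      refine ⟨m, ?_⟩
      rw [qCoeff_smul, hm]
      push_cast
      field_simp
    · rw [smul_inv_smul₀ (by norm_num : (3 : ℂ) ≠ 0), map_sub, map_intCast, LinearMap.sub_apply,
        Module.End.intCast_apply, ← Int.cast_smul_eq_zsmul ℂ]
      rfl
  -- the lifting lemma
  obtain ⟨v, χ, Q, hv0, hv, hQmax, hQ⟩ :=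
    exists_eigenvector_of_lattice ρ hρ L hfg hspan hL I hI
  -- eigenvalues
  let lam : ℕ → ℂ := fun p =>
    if hp : p.Prime then
      (if hpN : p ∣ N then
        ((χ (CuspForm.heckeAlgebra.U hp hpN (Set.notMem_empty p)) : integralClosure ℤ ℂ) : ℂ)
      else ((χ (CuspForm.heckeAlgebra.T hp hpN (Set.notMem_empty p)) : integralClosure ℤ ℂ) : ℂ))
    else 0
  have hlamT : ∀ (p : ℕ) (hp : p.Prime) (hpN : ¬ p ∣ N), lam p =
      ((χ (CuspForm.heckeAlgebra.T hp hpN (Set.notMem_empty p)) : integralClosure ℤ ℂ) : ℂ) := by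
    intro p hp hpN
    simp only [lam, dif_pos hp, dif_neg hpN]
  have hlamU : ∀ (p : ℕ) (hp : p.Prime) (hpN : p ∣ N), lam p =
      ((χ (CuspForm.heckeAlgebra.U hp hpN (Set.notMem_empty p)) : integralClosure ℤ ℂ) : ℂ) := by
    intro p hp hpN
    simp only [lam, dif_pos hp, dif_pos hpN]
  obtain ⟨f, hf, hfp⟩ := exists_normalized_of_eigenvector v hv0 lam
    (fun p hp hpN => by
      rw [hlamT p hp hpN, ← hv]
      rfl)
    (fun p hp hpN => by
      rw [hlamU p hp hpN, ← hv]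
      rfl)
  refine ⟨f, hf, Q, hQmax, ?_, fun ℓ hℓ hℓN => ?_⟩
  · have := hQ _ h3I
    rwa [map_natCast] at this
  · refine ⟨χ (CuspForm.heckeAlgebra.T hℓ hℓN (Set.notMem_empty ℓ)), ?_, ?_⟩
    · rw [hfp ℓ hℓ, hlamT ℓ hℓ hℓN]
    · have := hQ _ (hTI ℓ hℓ hℓN)
      rwa [map_sub, map_intCast] at this

end Fermat.Agent.S49
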