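-- S30 (row 29): the λ-adic Galois representation attached to a Hecke eigensystem.
-- Assembly (helper37, S30 registrar): `s30e37_endgame` (Iface37) applied to the four rows
--   (CORE)  ex73_s30i37_core_charZero   (helper73, CoreIface73)
--   (ET)    ea21_ETClaim             (helper21, EigenTateAsm21 on TateSeq35 of helper35)
--   THETA-Z thz31_closed_family         (helper31 and the Z-rows, ThetaClosedZ31)
--   (EIG)+(E4) ee42_hE4                 (helper42 / helper83, EigE4_42)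
import Fermat.Statements.S30
import Fermat.Agent.S30.Iface37
import Fermat.Agent.S30.CoreIface73
import Fermat.Agent.S30.EigE4_42
import Fermat.Agent.S42.ThetaClosedZ31
import Fermat.Agent.S30.EigenTateAsm21

set_option autoImplicit false
open Polynomial
open CuspForm

namespace Fermat.Agent.S30

theorem result :
    ∀ (p : ℕ) [Fact p.Prime] (N : ℕ) [NeZero N] (S : Finset ℕ)
      (_hpS : p ∈ S) (_hNS : ∀ q : ℕ, q.Prime → q ∣ N → q ∈ S)
      (𝒪' : Type) [CommRing 𝒪'] [IsDomain 𝒪'] [IsDiscreteValuationRing 𝒪']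
      [IsAdicComplete (IsLocalRing.maximalIdeal 𝒪') 𝒪'] [Finite (IsLocalRing.ResidueField 𝒪')]
      [CharZero 𝒪'] (_hp𝒪' : (p : 𝒪') ∈ IsLocalRing.maximalIdeal 𝒪')
      (χ : CuspForm.heckeAlgebra N 2 (↑S : Set ℕ) →+* 𝒪'),
      ∃ (𝒪'' : Type) (_ : CommRing 𝒪'') (_ : IsDomain 𝒪'') (_ : IsDiscreteValuationRing 𝒪'')
        (_ : IsAdicComplete (IsLocalRing.maximalIdeal 𝒪'') 𝒪'')
        (_ : Finite (IsLocalRing.ResidueField 𝒪'')) (_ : CharZero 𝒪'')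
        (_ : Algebra 𝒪' 𝒪'') (_ : Module.Finite 𝒪' 𝒪'') (_ : IsLocalHom (algebraMap 𝒪' 𝒪'')),
      Function.Injective (algebraMap 𝒪' 𝒪'') ∧
      ∃ ρ : GaloisRepAdic 𝒪'',
        (∀ (ℓ : ℕ) (hℓ : ℓ.Prime) (hℓN : ¬ ℓ ∣ N) (hℓS : ℓ ∉ (↑S : Set ℕ)),
          ∀ A : ValuationSubring (AlgebraicClosure ℚ), A.LiesOverPrime ℓ →
            ∀ σ : AlgebraicClosure ℚ ≃ₐ[ℚ] AlgebraicClosure ℚ, A.IsFrobeniusAt σ ℓ →
              LinearMap.charpoly (ρ.ρ σ) =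
                X ^ 2 - C (algebraMap 𝒪' 𝒪'' (χ (CuspForm.heckeAlgebra.T hℓ hℓN hℓS))) * X
                  + C ((ℓ : 𝒪''))) ∧
        (∀ q : ℕ, q.Prime → ¬ q ∣ N → q ≠ p → ρ.IsUnramifiedAt q) := by
  intro p _ N _ S hpS hNS 𝒪' _ _ _ _ _ _ hp𝒪' χ
  exact s30e37_endgame p N S hpS hNS 𝒪' hp𝒪' χ (ex73_s30i37_core_charZero 𝒪')
    (ea21_ETClaim p N S 𝒪' hp𝒪')
    (Fermat.Agent.S42.thz31_closed_family N p (Fact.out : p.Prime).ne_zero)
    (ee42_hE4 N S 𝒪' χ)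

end Fermat.Agent.S30
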