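-- Statement S34 (row 33): unipotent inertia at the primes q ≠ p exactly dividing the level.
-- The statement below is byte-identical to the frozen statement
-- CuspForm.HeckeGaloisRepDatum.FermatFrozen.S34.
import Fermat.Statements.S34
import Fermat.Agent.S34.Asm60
import Fermat.Agent.S34.Iface47c
import Fermat.Agent.S34.UniqueZero37
import Fermat.Agent.S34.LocPrin9
import Fermat.Agent.S34.Krull65
import Fermat.Agent.S34.PkgLD32
import Fermat.Agent.S34.PkgMain85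
import Fermat.Agent.S34.FrameSat85
import Fermat.Agent.S34.FrameGal14
import Fermat.Agent.S34.FrameLSAsm71
import Fermat.Agent.S34.FinSupp29
import Fermat.Agent.S34.CoreAsm57
import Fermat.Agent.S34.FieldDef45

set_option autoImplicit false
set_option autoImplicit false
open IsLocalRing
open CuspForm CuspForm.HeckeGaloisRepDatum

namespace Fermat.Agent.S34

theorem result
    {𝒪 : Type} [CommRing 𝒪] [IsDomain 𝒪] [IsDiscreteValuationRing 𝒪]
    [IsAdicComplete (maximalIdeal 𝒪) 𝒪] [Finite (ResidueField 𝒪)] [CharZero 𝒪]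
    {p : ℕ} (hp : p.Prime) (hp𝒪 : (p : 𝒪) ∈ maximalIdeal 𝒪)
    {N : ℕ} [NeZero N] {S : Finset ℕ} (hpS : p ∈ S) (hNS : ∀ q : ℕ, q.Prime → q ∣ N → q ∈ S)
    {θ : CuspForm.heckeAlgebra N 2 (↑S : Set ℕ) →+* ResidueField 𝒪}
    {T : Type} [CommRing T] [IsLocalRing T] [IsNoetherianRing T]
    [IsAdicComplete (maximalIdeal T) T] [Algebra 𝒪 T] [IsLocalHom (algebraMap 𝒪 T)]
    [Module.Finite 𝒪 T] [Module.Free 𝒪 T]
    (H : CuspForm.HeckeGaloisRepDatum N (↑S : Set ℕ) 𝒪 θ T)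
    (q : ℕ) (hq : q.Prime) (hqp : q ≠ p) (hqN : q ∣ N) (hq2 : ¬ q ^ 2 ∣ N) :
    H.ρ.IsUnipotentOnInertiaAt q :=
  s34a60_result_of_pkgs uz37_Pkg_UZ lp9_Pkg_LP kr65_Pkg_Krull pld32_Pkg_LD cm85_pkg_main
    (s34i47c_frame_of fs85_pkg_frameSat fg14_pkg_frameGal fl71_pkg_frameLS)
    fs29_Pkg_Fin ca57_core fd45_pkg_fieldDef
    hp hp𝒪 hpS hNS H q hq hqp hqN hq2

end Fermat.Agent.S34
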