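-- Statement S37 (row 36): existence of the specialization data for J_0(N) (Eichler-Shimura at good primes).
-- The statement below is byte-identical to the frozen statement ModularCurve.FermatFrozen.S37.
-- Proof: Fermat.Agent.S37.cm80_S37 (ChartModClose80): S18 + reduction data at the levels lcm(N, p0), p0 in {2, 3}
-- (place reduction from the Hauptmodul charts, decomposition-group equivariance), Eichler-Shimura on principal
-- divisors extended to degree-zero divisors by the weak Riemann bound.
import Fermat.Statements.S37
import Fermat.Agent.S37.ChartModClose80

set_option autoImplicit false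
open ModularCurve

namespace Fermat.Agent.S37

theorem result (N p : ℕ) [NeZero N] (hcomm : ModularCurve.HeckeOperatorsCommuteBar N) : letI := ModularCurve.heckeModuleBar N; ∀ (_ : SMulCommClass (AlgebraicClosure ℚ ≃ₐ[ℚ] AlgebraicClosure ℚ) ModularCurve.HeckeAlg (ModularCurve.JZero N)), ModularCurve.SpecializationExists (K := ℚ) (L := AlgebraicClosure ℚ) N p (ModularCurve.JZero N) :=
  cm80_S37 N p hcomm

end Fermat.Agent.S37
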