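import Fermat.Statements.S42
import Fermat.Agent.S42.SkeletonCore65
import Fermat.Agent.S42.BLR75
import Fermat.Agent.S42.CycloChar92
import Fermat.Agent.S42.Chain51

set_option autoImplicit false
open FreyPackage

namespace Fermat.Agent.S42

theorem result (P : FreyPackage) :
    ∀ M : ℕ, 0 < M → P.EigenformResidualAttachmentAt M := by
  have : Fact P.p.Prime := ⟨P.pp⟩
  exact sk65_S42 P (fun k _ _ W _ _ _ _ rho chi hq => blr75_main rho chi hq)
    (ExtCitation.cycloChar P.p)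
    ⟨fun ℓ hℓ hℓp A hA τ hτ => cy92_frob P.p hℓ hℓp A hA τ hτ,
      fun ℓ hℓ hℓp A hA s hs => cy92_inertia P.p hℓ hℓp A hA s hs,
      cy92_finiteLevel P.p⟩
    (fun N _ g hg k0 _ _ _ φ => ch51_W1 Fermat.Agent.S24.phi N P.p P.hp5 hg φ)

end Fermat.Agent.S42
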