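-- Statement S51 (row 45): for a semistable integral Weierstrass curve, at least one of the
-- mod-3 and mod-5 representations is irreducible.
import Fermat.Statements.S51
import Fermat.Agent.S51.Assembly
import Fermat.Agent.S51.Helper52Galois

set_option autoImplicit false
open WeierstrassCurve WeierstrassCurve.Affine WeierstrassCurve.Affine.Point
open CuspForm ModularFormClass UpperHalfPlane
open WeierstrassCurve

namespace Fermat.Agent.S51

theorem result (W : WeierstrassCurve ℤ) (hΔ : W.Δ ≠ 0) (hW : W.IsSemistableModel) : W.ModRepIsIrreducible 3 ∨ W.ModRepIsIrreducible 5 := by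
  by_contra hcon
  rw [not_or] at hcon
  obtain ⟨w, hw⟩ := three_reducible W hΔ hcon.1
  obtain ⟨s₁, s₂, u, v, huv, hs₁, hs₂, R1, R2⟩ := five_reducible W hΔ hcon.2
  exact semistable_false W hΔ hW w hw s₁ s₂ u v huv hs₁ hs₂ R1 R2

end Fermat.Agent.S51
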