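-- Statement S53: existence of the universal deformation ring (Mazur / Ramakrishna).
import Fermat.Statements.S53
import Fermat.Agent.S53.Good
import Fermat.Agent.S53.Frame
import Fermat.Agent.S53.Tangent
import Fermat.Agent.S53.GoodInf
import Fermat.Agent.S53.GoodKer
import Fermat.Agent.S53.GoodTower
import Fermat.Agent.S53.Helper56Tower
import Fermat.Agent.S53.Helper74TowerLift
import Fermat.Agent.S53.RigidGlue
import Fermat.Agent.S53.UnivRep
import Fermat.Agent.S53.Trunc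

set_option autoImplicit false
set_option autoImplicit false
open GaloisRep

namespace Fermat.Agent.S53

open IsLocalRing

/-- For a rigid type-`𝒟` deformation over a complete noetherian local ring, evaluation maps the
maximal ideal `mLam` into the maximal ideal. -/
lemma fin_mLam_pow_le {𝒪 : Type} [CommRing 𝒪] [IsLocalRing 𝒪]
    {𝒟 : ∀ ⦃A : Type⦄ [CommRing A] [IsLocalRing A] [Algebra 𝒪 A], GaloisRepAdic A → Prop}
    {F : Frame 𝒪} {A : Type} [CommRing A] [IsLocalRing A] [Algebra 𝒪 A]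
    (ψ : Lam 𝒪 →ₐ[𝒪] A)
    (h1 : F.Good 𝒟 (Ideal.comap ψ (maximalIdeal A ^ 1))) (n : ℕ) :
    F.mLam ^ n ≤ Ideal.comap ψ (maximalIdeal A ^ n) := by
  have hprime : (Ideal.comap ψ (maximalIdeal A)).IsPrime := Ideal.comap_isPrime ψ _
  obtain ⟨N, hN⟩ := h1.pow_le
  rw [pow_one] at hN
  have hle : F.mLam ≤ Ideal.comap ψ (maximalIdeal A) := Ideal.IsPrime.le_of_pow_le hN
  exact (Ideal.pow_right_mono hle n).trans (Ideal.le_comap_pow _ n)

theorem result
    (𝒪 : Type) [CommRing 𝒪] [IsDomain 𝒪] [IsDiscreteValuationRing 𝒪]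
    [IsAdicComplete (IsLocalRing.maximalIdeal 𝒪) 𝒪] [Finite (IsLocalRing.ResidueField 𝒪)]
    (ρbar : ResidualGaloisRep (IsLocalRing.ResidueField 𝒪))
    (𝒟 : ∀ ⦃A : Type⦄ [CommRing A] [IsLocalRing A] [Algebra 𝒪 A], GaloisRepAdic A → Prop)
    (habs : ρbar.IsAbsolutelyIrreducible)
    (h𝒟 : GaloisRep.IsDeformationCondition 𝒪 𝒟)
    (hbar : 𝒟 (GaloisRepAdic.ofResidualGaloisRep ρbar))
    (hfin : GaloisRep.TangentFinite 𝒪 ρbar 𝒟) :
    Nonempty (GaloisRep.DeformationRingData 𝒪 ρbar 𝒟) := by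
  classical
  -- Step 1: a rigidification frame.
  obtain ⟨rbar, g0, g1, i0, j0, hmat0, h00, h10, hne⟩ := exists_frame ρbar habs
  choose rt hrt using fun (σ : GQ) (i j : Fin 2) => IsLocalRing.residue_surjective (rbar σ i j)
  have hrtmap : ∀ σ, (Matrix.of (rt σ)).map (residue 𝒪) = rbar σ := by
    intro σ
    ext i j
    simp [hrt]
  let F : Frame 𝒪 :=
    { rt := fun σ => Matrix.of (rt σ)
      g0 := g0
      g1 := g1
      i0 := i0
      j0 := j0
      h00 := by
        rw [← IsLocalRing.residue_eq_zero_iff]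
        simpa [hrt] using h00
      h10 := by
        rw [← IsLocalRing.residue_eq_zero_iff, map_sub, map_one, sub_eq_zero]
        simpa [hrt] using h10
      hne := by
        by_contra hcon
        have h3 : (Matrix.of (rt g0) * Matrix.of (rt g1) - Matrix.of (rt g1) * Matrix.of (rt g0))
            i0 j0 ∈ maximalIdeal 𝒪 := (IsLocalRing.mem_maximalIdeal _).mpr hcon
        rw [← IsLocalRing.residue_eq_zero_iff] at h3
        apply hne
        rw [← h3, ← hrtmap g0, ← hrtmap g1]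
        simp [Matrix.sub_apply, Matrix.mul_apply, Fin.sum_univ_two] }
  have hmat : HasMatrixRes ρbar (fun σ => (F.rt σ).map (residue 𝒪)) := by
    have : (fun σ => (F.rt σ).map (residue 𝒪)) = rbar := funext hrtmap
    rw [this]
    exact hmat0
  -- Step 2: good ideals and their tower.
  have hres : Function.Surjective (Ideal.Quotient.mk F.mLam ∘ algebraMap 𝒪 (Lam 𝒪)) := by
    intro y
    obtain ⟨x, rfl⟩ := Ideal.Quotient.mk_surjective y
    obtain ⟨c, hc⟩ := F.exists_sub_C_mem x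
    exact ⟨c, ((Ideal.Quotient.eq).mpr hc).symm⟩
  have hG0 : F.Good 𝒟 F.mLam := F.good_mLam h𝒟 ρbar hmat hbar
  obtain ⟨d, t, ht, hG5⟩ := F.exists_tangent_generators h𝒟 ρbar hmat hfin
  obtain ⟨J, hJ1, hJgood, hJstep, hJmin, hJt⟩ :=
    exists_good_tower F.mLam hres (F.Good 𝒟) hG0 (fun 𝔞 h => ⟨h.le, h.pow_le⟩)
      (fun 𝔞 𝔟 h hab hb => h.mono h𝒟 hab hb) (fun 𝔞 𝔟 ha hb => ha.inf h𝒟 hb) d t ht hG5
  -- Step 3: the limit ring.
  obtain ⟨R, instR1, instR2, instR3, instR4, instR5, Θ, hRloc, hRsurj, hR⟩ :=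
    exists_tower_limit F.mLam hres J hJ1 hJstep d t hJt
  have hΘ : ∀ n, 1 ≤ n → F.Good 𝒟 (Ideal.comap Θ (maximalIdeal R ^ n)) := by
    intro n hn
    rw [(hR n hn).2]
    exact hJgood n hn
  -- Step 4: the universal representation.
  obtain ⟨ρ, hρm, hρrig⟩ := exists_universal_rep Θ hΘ
  have hρ𝒟 : 𝒟 ρ := type_of_universal_rep h𝒟 hRloc hRsurj Θ hΘ ρ hρm
  refine ⟨{ R := R
            instIsLocalHom := hRloc
            residue_surjective := hRsurj
            absIrr := habs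
            ρ := ρ
            isOfType := hρ𝒟
            residual_isEquiv := ?_
            universal := ?_ }⟩
  · exact @residual_isEquiv_of_res 𝒪 _ _ F ρbar hmat R _ _ _ hRloc ρ _ hρm hρrig.res
  · intro A _ _ _ _ _ hAloc hAsurj ρA hρA hresA
    obtain ⟨r, hrm, hrrig⟩ := exists_rigid_matrix F ρbar hmat ρA hresA
    have hgoodA : ∀ n, 1 ≤ n →
        F.Good 𝒟 (Ideal.comap (evMat r : Lam 𝒪 →ₐ[𝒪] A) (maximalIdeal A ^ n)) :=
      fun n hn => good_comap_evMat h𝒟 hAloc hAsurj ρA hρA hrm hrrig n hn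
    have hψ : ∀ n, 1 ≤ n → Ideal.comap Θ (maximalIdeal R ^ n) ≤
        Ideal.comap (evMat r : Lam 𝒪 →ₐ[𝒪] A) (maximalIdeal A ^ n) := by
      intro n hn
      rw [(hR n hn).2]
      exact hJmin n _ (hgoodA n hn) (fin_mLam_pow_le _ (hgoodA 1 le_rfl) n)
    obtain ⟨φ, hφ⟩ := tower_lift Θ (fun n hn => (hR n hn).1) (evMat r) hψ
    have hφloc : IsLocalHom (φ : R →+* A) := isLocalHom_of_algHom 𝒪 hAsurj hAloc φ
    have hmatφ : (fun σ => ((taut 𝒪 σ).map Θ).map φ) = r := by
      funext σ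
      have h5 : (taut 𝒪 σ).map (φ.comp Θ) = r σ := by
        rw [hφ]
        exact taut_map_evMat r σ
      rw [← h5]
      ext i j
      simp
    refine ⟨φ, ⟨hφloc, ?_⟩, ?_⟩
    · have h3 := hρm.baseChangeAlong (φ : R →+* A) hφloc
      have h4 : HasMatrix (ρ.baseChangeAlong (φ : R →+* A) hφloc) r := by
        rw [← hmatφ]
        exact h3
      exact h4.isEquiv hrm
    · rintro φ' ⟨hφ'loc, e'⟩
      have h3 := hρm.baseChangeAlong (φ' : R →+* A) hφ'loc
      have hrig' : IsRigid F.rt F.g0 F.g1 F.i0 F.j0 (fun σ => ((taut 𝒪 σ).map Θ).map φ') :=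
        isRigid_map φ' hφ'loc hρrig
      have heq := rigid_matrix_unique F h3 hrm hrig' hrrig e'
      have hcomp : φ'.comp Θ = φ.comp Θ := by
        rw [hφ]
        apply MvPolynomial.algHom_ext
        rintro ⟨σ, i, j⟩
        have h5 := congrFun (congrFun (congrFun heq σ) i) j
        rw [evMat_X]
        simpa [taut_apply] using h5
      exact tower_lift_unique Θ (fun n hn => (hR n hn).1) φ' φ hφ'loc hφloc hcomp

end Fermat.Agent.S53
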