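-- Statement S57 (row 51): the theorem Algebra.PatchingLevel.free_and_ker_eq_span.
-- Proof: the patched module is free over the power series ring (projective dimension
-- argument along regular sequences), then elementary linear algebra.
import Fermat.Statements.S57
import Fermat.Agent.S57.Helper57Final
import Fermat.Agent.S57.Helper57Len
import Fermat.Agent.S57.Helper57Reg
import Fermat.Agent.S57.Helper57PD

set_option autoImplicit false
open Algebra Algebra.PatchingLevel

namespace Fermat.Agent.S57

theorem result
    {𝒪 : Type} [CommRing 𝒪] [IsDomain 𝒪] [IsDiscreteValuationRing 𝒪]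
    {r : ℕ} {R : Type} [CommRing R] [Algebra 𝒪 R]
    {M : Type} [AddCommGroup M] [Module R M] [Nontrivial M]
    (L : Algebra.PatchingLevel 𝒪 r R M ⊥) :
    Module.Free R M ∧ Module.annihilator R M = ⊥ ∧
      RingHom.ker L.ψ = Ideal.span (Set.range fun i : Fin r => L.φ (MvPowerSeries.X i)) := by
  obtain ⟨ts, hts, hspan⟩ := exists_regular_generators 𝒪 r
  have := finite_N L
  have := nontrivial_N L
  have : Module.Free (MvPowerSeries (Fin r) 𝒪) L.N :=
    free_of_regular_of_isFiniteLength ts (ts.map L.φ) hts hspan (by simp)
      (fun x hx => by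
        obtain ⟨t, ht, rfl⟩ := List.mem_map.1 hx
        exact phi_mem_maximalIdeal L.φ (hspan ▸ Ideal.subset_span ht))
      (isWeaklyRegular_map_phi L ts hts) (isFiniteLength_quot L ts hspan)
  exact final_of_free L

end Fermat.Agent.S57
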